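/-
S15lib / Desc / Count  (helper7)  — Project E

**The tag count** (pure group theory).  Let `⊥ = W 0 ≤ W 1 ≤ … ≤ W n` be a chain of subgroups of an
abelian group with `r • W (i+1) ≤ W i` (`r` prime) and `S` a subgroup with `S ⊓ W n` finite.  Call the
step `i` *tagged* if `S ⊓ W (i+1) ≰ W i` (the trace of `S` on the filtration grows).  Then

  `r ^ #{tagged steps} ≤ |S ⊓ W n|`.

In the descent: `S = ` the kernel of reduction at `r` in the Eisenstein part (mult-tag pieces) and
`S = ` the defect subgroup at the level (defect pieces).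
-/
import Mathlib

set_option autoImplicit false
set_option linter.style.haveILetI false

namespace Fermat.Agent.S15lib.Desc

open scoped BigOperators

variable {M : Type*} [AddCommGroup M]

/-- one tagged step multiplies the cardinality by at least `r` -/
theorem card_step_ge {r : ℕ} (hr : r.Prime) {A B : AddSubgroup M} (hAB : A ≤ B) [Finite B]
    {x : M} (hxB : x ∈ B) (hxA : x ∉ A) (hrx : r • x ∈ A) :
    Nat.card A * r ≤ Nat.card B := by
  classical
  let f : A × Fin r → B := fun z => ⟨(z.1 : M) + (z.2 : ℕ) • x,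
    B.add_mem (hAB z.1.2) (B.nsmul_mem hxB _)⟩
  have key : ∀ (j j' : ℕ), j' ≤ j → j < r → (j - j') • x ∈ A → j = j' := by
    intro j j' hle hj hmem
    by_contra hne
    have hd0 : 0 < j - j' := Nat.sub_pos_of_lt (lt_of_le_of_ne hle (Ne.symm hne))
    have hdr : j - j' < r := lt_of_le_of_lt (Nat.sub_le _ _) hj
    have hcop : Nat.Coprime (j - j') r :=
      ((Nat.Prime.coprime_iff_not_dvd hr).2 (Nat.not_dvd_of_pos_of_lt hd0 hdr)).symm
    obtain ⟨m, -, hm⟩ := Nat.exists_mul_mod_eq_one_of_coprime hcop hr.one_lt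
    obtain ⟨t, ht⟩ : ∃ t : ℕ, (j - j') * m = r * t + 1 :=
      ⟨(j - j') * m / r, by
        have := Nat.div_add_mod ((j - j') * m) r
        rw [hm] at this
        exact this.symm⟩
    have h2 : ((j - j') * m) • x = (r * t) • x + x := by
      rw [ht, add_nsmul, one_nsmul]
    have h3 : ((j - j') * m) • x ∈ A := by
      rw [mul_nsmul]
      exact A.nsmul_mem hmem _
    have h4 : (r * t) • x ∈ A := by
      rw [mul_nsmul]
      exact A.nsmul_mem hrx _
    have h5 : x = ((j - j') * m) • x - (r * t) • x := by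
      rw [h2]; abel
    rw [h5] at hxA
    exact hxA (A.sub_mem h3 h4)
  have hinj : Function.Injective f := by
    rintro ⟨s, j⟩ ⟨s', j'⟩ h
    have h0 : (s : M) + (j : ℕ) • x = (s' : M) + (j' : ℕ) • x := congrArg Subtype.val h
    have hjj : (j : ℕ) = (j' : ℕ) := by
      rcases le_total (j' : ℕ) (j : ℕ) with hle | hle
      · refine key j j' hle j.2 ?_
        have : ((j : ℕ) - (j' : ℕ)) • x = (s' : M) - (s : M) := by
          rw [sub_nsmul _ hle]
          rw [← sub_eq_zero] at h0
          rw [← sub_eq_zero]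
          rw [← h0]; abel
        rw [this]
        exact A.sub_mem s'.2 s.2
      · refine (key j' j hle j'.2 ?_).symm
        have : ((j' : ℕ) - (j : ℕ)) • x = (s : M) - (s' : M) := by
          rw [sub_nsmul _ hle]
          rw [← sub_eq_zero] at h0
          rw [← sub_eq_zero]
          rw [← neg_eq_zero, ← h0]; abel
        rw [this]
        exact A.sub_mem s.2 s'.2
    have hj : j = j' := Fin.ext hjj
    subst hj
    have hs : (s : M) = (s' : M) := add_right_cancel h0
    exact Prod.ext (Subtype.ext hs) rfl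
  haveI : Finite A := Finite.of_injective (fun a : A => (⟨a.1, hAB a.2⟩ : B))
    (fun a b h => Subtype.ext (congrArg (fun z : B => (z : M)) h))
  calc Nat.card A * r = Nat.card (A × Fin r) := by
        rw [Nat.card_prod, Nat.card_fin]
    _ ≤ Nat.card B := Nat.card_le_card_of_injective f hinj

/-- **the tag count** -/
theorem pow_card_tagged_le {r : ℕ} (hr : r.Prime) (n : ℕ) (W : ℕ → AddSubgroup M)
    (hW0 : W 0 = ⊥) (hmono : ∀ i < n, W i ≤ W (i + 1))
    (hexp : ∀ i < n, ∀ x ∈ W (i + 1), r • x ∈ W i)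
    (S : AddSubgroup M) [Finite S] (tag : ℕ → Prop) [DecidablePred tag]
    (htag : ∀ i < n, tag i → ¬ (S ⊓ W (i + 1) ≤ W i)) :
    ∏ i ∈ Finset.range n, (if tag i then r else 1) ≤ Nat.card ↥(S ⊓ W n) := by
  have hfin : ∀ i, Finite ↥(S ⊓ W i) := fun i =>
    Finite.of_injective (fun a : ↥(S ⊓ W i) => (⟨a.1, a.2.1⟩ : S))
      (fun a b h => Subtype.ext (congrArg (fun z : S => (z : M)) h))
  induction n with
  | zero =>
    haveI := hfin 0
    rw [Finset.range_zero, Finset.prod_empty]
    exact Nat.one_le_iff_ne_zero.2 (Nat.card_pos).ne'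
  | succ n ih =>
    have hle : S ⊓ W n ≤ S ⊓ W (n + 1) := inf_le_inf_left S (hmono n (Nat.lt_succ_self n))
    haveI := hfin n
    haveI := hfin (n + 1)
    have ih' := ih (fun i hi => hmono i (Nat.lt_succ_of_lt hi))
      (fun i hi => hexp i (Nat.lt_succ_of_lt hi)) (fun i hi => htag i (Nat.lt_succ_of_lt hi))
    rw [Finset.prod_range_succ]
    by_cases ht : tag n
    · rw [if_pos ht]
      have hnot := htag n (Nat.lt_succ_self n) ht
      obtain ⟨x, hx, hxW⟩ := SetLike.not_le_iff_exists.1 hnot
      have hxn : x ∉ S ⊓ W n := fun h => hxW h.2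
      have hrx : r • x ∈ S ⊓ W n :=
        ⟨S.nsmul_mem hx.1 _, hexp n (Nat.lt_succ_self n) x hx.2⟩
      calc (∏ i ∈ Finset.range n, (if tag i then r else 1)) * r
          ≤ Nat.card ↥(S ⊓ W n) * r := Nat.mul_le_mul_right r ih'
        _ ≤ Nat.card ↥(S ⊓ W (n + 1)) := card_step_ge hr hle hx hxn hrx
    · rw [if_neg ht, mul_one]
      exact le_trans ih' (Nat.card_le_card_of_injective
        (fun a : ↥(S ⊓ W n) => (⟨a.1, hle a.2⟩ : ↥(S ⊓ W (n + 1))))
        (fun a b h => Subtype.ext (congrArg (fun z : ↥(S ⊓ W (n + 1)) => (z : M)) h)))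

end Fermat.Agent.S15lib.Desc
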