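/-
S15lib / Desc / Iface  (helper7, architect of the descent side)  — Project E

Interface of the Eisenstein descent `DescStmt` = (D1″) of `S15lib/Iface.lean`:

  for every prime `r ≠ p` and every `k` there is a Hecke polynomial `e`, the identity on the Eisenstein
  eigenvectors of `J[r^k]`, with `e(G) ⊆ r^k G + G[r^∞]`            (`J = JZero p`, `G = J^{G_ℚ}`).

Everything in this file is a definition or a statement (`def … : Prop`); the assembly
`desc_of_stmts` is in `S15lib/Desc/Main.lean`.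

**The mathematics** (`K` = the level of the descent, `m = r^K`).
* `VE p r K`       the Eisenstein generalised eigenspace of `J[r^K]` (all `η_q = T_q − 1 − q`, `q ≠ p`,
                   `q = r` INCLUDED, nilpotent);  `e` = a Hecke polynomial projecting `J[r^K]` onto it
                   (`HProjStmt`).
* Kummer cocycles  `kum e h σ = e (σ h − h)` for `h ∈ J` with `r^K h ∈ G` (divisibility: `DivStmt`,
                   continuity: `ContStmt`); they take values in `VE p r K`.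
* `G⁰_K`           `:= {g ∈ G | ∀ A ∣ p, ∃ h, r^K h = g ∧ h is fixed by I_A}`: for these the Kummer cocycle
                   restricted to `I_A`, `A ∣ p`, is the coboundary of a torsion point, hence takes values in
                   `defectSub A = ⟨σ x − x | σ ∈ I_A, x ∈ VE⟩`.  `LocNDivStmt`: `i₀ • G ⊆ G⁰_K` for all `K`.
* The count (`SelStmt` = helper6's `SEL.kummer_card_le`): along a `G_ℚ`-stable Jordan–Hölder filtration
  of `VE p r K` with pieces `𝔽_r` or `μ_r` (`AdmStmt`) the group `𝒦` of Kummer cocycles of `G⁰_K` has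
  `|𝒦| ≤ r^(#mult-tag + #defect) = |VE ∩ ker red_A| · |defectSub A'|`  (`A ∣ r`, `A' ∣ p`), where
    - étale-tag pieces (the kernel of reduction at `r` does not grow) get classes unramified at `r`
      (inertia-invariance of the reduction map + `RedHeckeStmt`),
    - mult-tag pieces get UNIT classes at `r` over the FULL inertia group (`KumMStmt`; this is the
      deep local statement at `r`, see #h7-E1 (4), #h2-111, #h2-112),
    - for odd `r` an étale-tag piece is `𝔽_r` and a mult-tag piece is `μ_r` (`Mt1Stmt`: the kernel of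
      reduction in `VE p r 1` is of multiplicative type; `CycloRamStmt`: `ℚ(ζ_r)` is ramified at `r`),
    - good pieces at `p` (the defect subgroup does not grow) get cocycles with values in `W i` on
      inertia at `p` (definition of `G⁰_K`).
* Purity: `|VE ∩ ker red_A|² ≤ |VE|` (`OrdStmt`, helper5) and `|defectSub A'|² ≤ |VE|` (tame inertia is
  cyclic, `LocNTameStmt`, and `(σ − 1)² = 0`, `LocNUnipStmt`).  Hence `|𝒦| ≤ |VE|`; as `VE / VE^{G_ℚ}`
  embeds into `𝒦`, the group `{h | r^K h ∈ G⁰_K} / {h | e h ∈ G}` modulo torsion has order `≤ |VE^{G_ℚ}|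
  ≤ |G[r^∞]| < ∞` (`FinStmt` + S18), uniformly in `K`: this is (BND) of #h7-E1, and (D1″) follows.
-/
import Mathlib
import Fermat.Agent.S15lib.Iface
import Fermat.Agent.S15lib.SEL.IfaceSEL

set_option autoImplicit false
set_option linter.style.haveILetI false
set_option linter.unusedSectionVars false

noncomputable section

namespace Fermat.Agent.S15lib.Desc

open AlgebraicCurve ModularCurve Fermat.Agent.S15lib

/-- `ℚ̄` -/
local notation "Qb" => AlgebraicClosure ℚ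
/-- `G_ℚ` -/
local notation "GQ" => (AlgebraicClosure ℚ ≃ₐ[ℚ] AlgebraicClosure ℚ)

/-! ### vocabulary -/

section Vocabulary

variable (p : ℕ) [NeZero p]

/-- `η_q = T_q − (1 + q)` on `J₀(p)(ℚ̄)` -/
def eta (q : Nat.Primes) : AddMonoid.End (JZero p) :=
  TJ p q - ((1 + (q : ℕ) : ℕ) : AddMonoid.End (JZero p))

/-- `J[m]` as an additive subgroup -/
def tors (m : ℕ) : AddSubgroup (JZero p) := (nsmulAddMonoidHom (α := JZero p) m).ker

/-- **the Eisenstein generalised eigenspace** of `J[r^K]`: all `η_q`, `q ≠ p`, are nilpotent. -/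
def VE (r K : ℕ) : AddSubgroup (JZero p) where
  carrier := {x | r ^ K • x = 0 ∧ ∀ q : Nat.Primes, (q : ℕ) ≠ p → ∃ j : ℕ, (eta p q ^ j) x = 0}
  zero_mem' := ⟨smul_zero _, fun q _ => ⟨0, map_zero _⟩⟩
  add_mem' := by
    rintro a b ⟨ha, ha'⟩ ⟨hb, hb'⟩
    refine ⟨by rw [nsmul_add, ha, hb, add_zero], fun q hq => ?_⟩
    obtain ⟨j, hj⟩ := ha' q hq
    obtain ⟨j', hj'⟩ := hb' q hq
    refine ⟨j + j', ?_⟩
    rw [map_add]
    have h1 : (eta p q ^ (j + j')) a = 0 := by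
      rw [add_comm, pow_add]
      show (eta p q ^ j') ((eta p q ^ j) a) = 0
      rw [hj, map_zero]
    have h2 : (eta p q ^ (j + j')) b = 0 := by
      rw [pow_add]
      show (eta p q ^ j) ((eta p q ^ j') b) = 0
      rw [hj', map_zero]
    rw [h1, h2, add_zero]
  neg_mem' := by
    rintro a ⟨ha, ha'⟩
    refine ⟨by rw [neg_nsmul, ha, neg_zero], fun q hq => ?_⟩
    obtain ⟨j, hj⟩ := ha' q hq
    exact ⟨j, by rw [map_neg, hj, neg_zero]⟩

/-- the kernel of the reduction map at `A` -/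
def kerRed (A : ValuationSubring Qb) : AddSubgroup (JZero p) := (reductionModL A p).ker

/-- the points fixed by the inertia group of `A` -/
def inertiaFixed (A : ValuationSubring Qb) : AddSubgroup (JZero p) where
  carrier := {x | ∀ σ ∈ A.inertiaSubgroupIn ℚ, σ • x = x}
  zero_mem' := fun σ _ => smul_zero σ
  add_mem' := fun {a b} ha hb σ hσ => by rw [smul_add, ha σ hσ, hb σ hσ]
  neg_mem' := fun {a} ha σ hσ => by rw [smul_neg, ha σ hσ]

/-- **the defect subgroup** at a place `A` (over the level `p`): generated by the `σ x − x`,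
`σ ∈ I_A`, `x ∈ VE p r K`.  (`= (τ − 1) VE` for a tame generator `τ`.) -/
def defectSub (r K : ℕ) (A : ValuationSubring Qb) : AddSubgroup (JZero p) :=
  AddSubgroup.closure {y | ∃ σ ∈ A.inertiaSubgroupIn ℚ, ∃ x ∈ VE p r K, y = σ • x - x}

/-- **the Kummer cocycle** of `h`, projected by the Hecke polynomial `e` -/
def kum (e : AddMonoid.End (JZero p)) (h : JZero p) : GQ → JZero p := fun σ => e (σ • h - h)

/-- `G⁰_K`: the rational points which are `r^K`-divisible inside the inertia-fixed points at every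
place over the level `p`. -/
def IsG0 (r K : ℕ) (g : JZero p) : Prop :=
  IsRat g ∧ ∀ A : ValuationSubring Qb, A.LiesOverPrime p →
    ∃ h : JZero p, r ^ K • h = g ∧ h ∈ inertiaFixed p A

/-- the piece `W ≤ W'` is `𝔽_r` with trivial action (witnessed by `e`) -/
def TrivPiece (r : ℕ) (W W' : AddSubgroup (JZero p)) : Prop :=
  ∃ e : JZero p → ZMod r,
    (∀ x ∈ W', ∀ y ∈ W', e (x + y) = e x + e y) ∧
    (∀ x ∈ W', e x = 0 ↔ x ∈ W) ∧
    (∀ (g : GQ), ∀ x ∈ W', e (g • x) = e x)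

/-- the piece `W ≤ W'` is `μ_r` (witnessed by `φ`) -/
def CycPiece (r : ℕ) (W W' : AddSubgroup (JZero p)) : Prop :=
  ∃ φ : JZero p → Qb,
    (∀ x ∈ W', ∀ y ∈ W', φ (x + y) = φ x * φ y) ∧
    (∀ x ∈ W', φ x ^ r = 1) ∧
    (∀ x ∈ W', φ x = 1 ↔ x ∈ W) ∧
    (∀ (g : GQ), ∀ x ∈ W', φ (g • x) = g (φ x))

end Vocabulary

/-! ### the statements of the blocks -/

/-- **(U1)** `J₀(p)(ℚ̄)` is divisible.  Owner: helper1, `S15lib/U1/`. -/
def DivStmt : Prop :=
  ∀ {p : ℕ} (hp : p.Prime), haveI : NeZero p := ⟨hp.ne_zero⟩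
    ∀ (n : ℕ), 0 < n → ∀ z : JZero p, ∃ w : JZero p, n • w = z

/-- **(CONT)** every point of `J₀(p)(ℚ̄)` has an open stabiliser.  Owner: helper2 (K0), `S15lib/Kum/`. -/
def ContStmt : Prop :=
  ∀ {p : ℕ} (hp : p.Prime), haveI : NeZero p := ⟨hp.ne_zero⟩
    ∀ z : JZero p, ∃ F : IntermediateField ℚ Qb, FiniteDimensional ℚ F ∧
      ∀ s : GQ, s ∈ F.fixingSubgroup → s • z = z

/-- **(HPROJ)** the Eisenstein projector at level `r^K` is a Hecke polynomial.  (Fitting decomposition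
of the finite commutative ring generated by the `T_q` on `J[r^K] ≃ (ℤ/r^K)^{2g}`,
`S35lib.New.comparisonDataAt`.)  Owner: helper3 (ADM), `S15lib/Adm/`. -/
def HProjStmt : Prop :=
  ∀ {p : ℕ} (hp : p.Prime) {r : ℕ} (_hr : r.Prime) (_hrp : r ≠ p) (K : ℕ),
    haveI : NeZero p := ⟨hp.ne_zero⟩
    ∃ e ∈ heckeRing p, (∀ x : JZero p, r ^ K • x = 0 → e x ∈ VE p r K) ∧ ∀ x ∈ VE p r K, e x = x

/-- **(ADM)** a `G_ℚ`-stable filtration of the Eisenstein part of `J[r^K]` with pieces `𝔽_r` or `μ_r`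
(Eichler–Shimura + Chebotarev + Kolchin; Mazur II.14).  Owner: helper3, `S15lib/Adm/`. -/
def AdmStmt : Prop :=
  ∀ {p : ℕ} (hp : p.Prime) (_hp' : p ∉ ({2, 3, 5, 7, 13} : Finset ℕ))
    {r : ℕ} (_hr : r.Prime) (_hrp : r ≠ p) (K : ℕ),
    haveI : NeZero p := ⟨hp.ne_zero⟩
    ∃ (n : ℕ) (W : ℕ → AddSubgroup (JZero p)), W 0 = ⊥ ∧ W n = VE p r K ∧
      (∀ i < n, W i ≤ W (i + 1)) ∧
      (∀ i ≤ n, ∀ (σ : GQ), ∀ x ∈ W i, σ • x ∈ W i) ∧
      ∀ i < n, TrivPiece p r (W i) (W (i + 1)) ∨ CycPiece p r (W i) (W (i + 1))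

/-- **(C0)** the reduction map at `A ∣ ℓ`, `ℓ ≠ p`, is invariant under the inertia group.
(On main in the form of `S37lib.C0`; restated here for the assembly.)  Owner: helper7. -/
def InertiaRedStmt : Prop :=
  ∀ {p : ℕ} (hp : p.Prime) {ℓ : ℕ} (_hℓ : ℓ.Prime) (_hℓp : ℓ ≠ p)
    (A : ValuationSubring Qb) (_hA : A.LiesOverPrime ℓ),
    haveI : NeZero p := ⟨hp.ne_zero⟩
    ∀ σ ∈ A.inertiaSubgroupIn ℚ, ∀ z : JZero p, reductionModL A p (σ • z) = reductionModL A p z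

/-- **(S18)** injectivity of the reduction map on prime-to-`ℓ` torsion, with the reduction inputs
supplied (main: `S18.result` + `S37lib.B3.reductionInputsModL`).  Owner: helper7. -/
def TorsInjPrimeToStmt : Prop :=
  ∀ {p : ℕ} (hp : p.Prime) {ℓ : ℕ} (_hℓ : ℓ.Prime) (_hℓp : ℓ ≠ p)
    (A : ValuationSubring Qb) (_hA : A.LiesOverPrime ℓ),
    haveI : NeZero p := ⟨hp.ne_zero⟩
    ∀ (m : ℕ), ¬ ℓ ∣ m → ∀ z : JZero p, m • z = 0 → reductionModL A p z = 0 → z = 0

/-- **(KUM-M)** the flat condition at `r`: on a `μ_r`-piece the Kummer cocycles of rational points are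
UNIT classes over the full inertia group of every place over `r`.  (NOT the Tate–Lichtenbaum
computation, which only sees `I_A ∩ Stab t`; see #h7-E1 (4), #h2-111, #h2-112.)
Owner: helper2, `S15lib/Kum/`. -/
def KumMStmt : Prop :=
  ∀ {p : ℕ} (hp : p.Prime) (_hp' : p ∉ ({2, 3, 5, 7, 13} : Finset ℕ))
    {r : ℕ} (_hr : r.Prime) (_hrp : r ≠ p) (K : ℕ),
    haveI : NeZero p := ⟨hp.ne_zero⟩
    ∀ e ∈ heckeRing p, (∀ x : JZero p, r ^ K • x = 0 → e x ∈ VE p r K) → (∀ x ∈ VE p r K, e x = x) →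
    ∀ (W W' : AddSubgroup (JZero p)), W ≤ W' → W' ≤ VE p r K →
      (∀ (σ : GQ), ∀ x ∈ W, σ • x ∈ W) → (∀ (σ : GQ), ∀ x ∈ W', σ • x ∈ W') →
    ∀ φ : JZero p → Qb,
      (∀ x ∈ W', ∀ y ∈ W', φ (x + y) = φ x * φ y) → (∀ x ∈ W', φ x ^ r = 1) →
      (∀ x ∈ W', φ x = 1 ↔ x ∈ W) → (∀ (g : GQ), ∀ x ∈ W', φ (g • x) = g (φ x)) →
    ∀ h : JZero p, IsRat (r ^ K • h) → (∀ σ : GQ, kum p e h σ ∈ W') →
    ∀ A : ValuationSubring Qb, A.LiesOverPrime r →
      ∃ β : Qb, A.valuation β = 1 ∧ ∀ σ ∈ A.inertiaSubgroupIn ℚ, σ β = φ (kum p e h σ) * β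

/-- **(MT₁)** the kernel of reduction at `A ∣ r` in the Eisenstein part of `J[r]` is of multiplicative
type: the inertia group acts on it through the cyclotomic character.  (From the isotropy (L1) of
helper5's ORD, the nondegeneracy and equivariance of the Weil pairing on `VE p r 1`, and (C0).)
Only used for odd `r`.  Owner: helper5 + helper9. -/
def Mt1Stmt : Prop :=
  ∀ {p : ℕ} (hp : p.Prime) (_hp' : p ∉ ({2, 3, 5, 7, 13} : Finset ℕ))
    {r : ℕ} (_hr : r.Prime) (_hrp : r ≠ p) (_hr2 : r ≠ 2)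
    (A : ValuationSubring Qb) (_hA : A.LiesOverPrime r),
    haveI : NeZero p := ⟨hp.ne_zero⟩
    ∀ σ ∈ A.inertiaSubgroupIn ℚ, ∀ a : ℕ, (∀ ζ : Qb, ζ ^ r = 1 → σ ζ = ζ ^ a) →
      ∀ x ∈ VE p r 1 ⊓ kerRed p A, σ • x = a • x

/-- **(RAM)** `ℚ(ζ_r)` is ramified at `r` for odd `r`: some element of the inertia group of `A ∣ r`
moves an `r`-th root of unity.  Owner: helper7 (or from S56lib/Tame). -/
def CycloRamStmt : Prop :=
  ∀ {r : ℕ} (_hr : r.Prime) (_hr2 : r ≠ 2) (A : ValuationSubring Qb) (_hA : A.LiesOverPrime r),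
    ∃ σ ∈ A.inertiaSubgroupIn ℚ, ∃ ζ : Qb, ζ ^ r = 1 ∧ σ ζ ≠ ζ

/-- **(ORD)** purity at `r`: the kernel of reduction is at most half of the Eisenstein part.
Owner: helper5, `S15lib/ORD/`. -/
def OrdStmt : Prop :=
  ∀ {p : ℕ} (hp : p.Prime) (_hp' : p ∉ ({2, 3, 5, 7, 13} : Finset ℕ))
    {r : ℕ} (_hr : r.Prime) (_hrp : r ≠ p) (K : ℕ)
    (A : ValuationSubring Qb) (_hA : A.LiesOverPrime r),
    haveI : NeZero p := ⟨hp.ne_zero⟩
    Nat.card ↥(VE p r K ⊓ kerRed p A) ^ 2 ≤ Nat.card ↥(VE p r K)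

/-- **(LOCN-div)** a fixed multiple of every rational point is `r^K`-divisible inside the
inertia-fixed points at the places over the level, for all `K`.  (Purely toric reduction at `p` +
finite component group.)  Owner: helper4, `S15lib/LocN/`. -/
def LocNDivStmt : Prop :=
  ∀ {p : ℕ} (hp : p.Prime) (_hp' : p ∉ ({2, 3, 5, 7, 13} : Finset ℕ))
    {r : ℕ} (_hr : r.Prime) (_hrp : r ≠ p),
    haveI : NeZero p := ⟨hp.ne_zero⟩
    ∃ i₀ : ℕ, 0 < i₀ ∧ ∀ g : JZero p, IsRat g → ∀ K : ℕ, IsG0 p r K (i₀ • g)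

/-- **(LOCN-tame)** the inertia group at a place over the level acts on `J[r^K]` through a cyclic
group.  Owner: helper4 (`LocN.exists_tame_generator` + `LocNUnipStmt`). -/
def LocNTameStmt : Prop :=
  ∀ {p : ℕ} (hp : p.Prime) {r : ℕ} (_hr : r.Prime) (_hrp : r ≠ p) (K : ℕ)
    (A : ValuationSubring Qb) (_hA : A.LiesOverPrime p),
    haveI : NeZero p := ⟨hp.ne_zero⟩
    ∃ τ ∈ A.inertiaSubgroupIn ℚ, ∀ σ ∈ A.inertiaSubgroupIn ℚ, ∃ j : ℕ,
      ∀ x : JZero p, r ^ K • x = 0 → σ • x = τ ^ j • x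

/-- **(LOCN-unip)** `(σ − 1)² = 0` on `J[r^K]` for `σ` in the inertia group at a place over the
level.  (Main: `LSb.unipTors`.)  Owner: helper4. -/
def LocNUnipStmt : Prop :=
  ∀ {p : ℕ} (hp : p.Prime) (_hp5 : 5 ≤ p) {r : ℕ} (_hr : r.Prime) (_hrp : r ≠ p) (K : ℕ)
    (A : ValuationSubring Qb) (_hA : A.LiesOverPrime p),
    haveI : NeZero p := ⟨hp.ne_zero⟩
    ∀ σ ∈ A.inertiaSubgroupIn ℚ, ∀ x : JZero p, r ^ K • x = 0 →
      σ • σ • x - (σ • x + σ • x) + x = 0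

/-- **(SEL)** helper6's count `SEL.kummer_card_le`, as a statement. -/
def SelStmt : Prop :=
  ∀ {r N : ℕ} (_hr : r.Prime) (_hN : N.Prime) (_hrN : r ≠ N)
    {V : Type} [AddCommGroup V] [DistribMulAction GQ V]
    (K : AddSubgroup (GQ → V))
    (_hKc : ∀ c ∈ K, SEL.IsCocycle c ∧ SEL.IsLevelConst c)
    (_hKur : ∀ c ∈ K, ∀ ℓ : ℕ, ℓ.Prime → ℓ ≠ r → ℓ ≠ N → SEL.UnramAt ℓ c)
    (n : ℕ) (W : ℕ → AddSubgroup V) (_hW0 : W 0 = ⊥) (_hWn : W n = ⊤)
    (_hmono : ∀ i < n, W i ≤ W (i + 1))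
    (_hstab : ∀ i ≤ n, ∀ (g : GQ), ∀ x ∈ W i, g • x ∈ W i)
    (kind : ℕ → SEL.Kind)
    (_hE : ∀ i < n, kind i = .eGood ∨ kind i = .eDefect →
      ∃ e : V → ZMod r,
        (∀ x ∈ W (i + 1), ∀ y ∈ W (i + 1), e (x + y) = e x + e y) ∧
        (∀ x ∈ W (i + 1), e x = 0 ↔ x ∈ W i) ∧
        (∀ (g : GQ), ∀ x ∈ W (i + 1), e (g • x) = e x) ∧
        ∀ c ∈ SEL.valuedIn K (W (i + 1)), SEL.AddUnramAt r (e ∘ c))
    (_hM : ∀ i < n, kind i = .mGood ∨ kind i = .mDefect →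
      ∃ φ : V → Qb,
        (∀ x ∈ W (i + 1), ∀ y ∈ W (i + 1), φ (x + y) = φ x * φ y) ∧
        (∀ x ∈ W (i + 1), φ x ^ r = 1) ∧
        (∀ x ∈ W (i + 1), φ x = 1 ↔ x ∈ W i) ∧
        (∀ (g : GQ), ∀ x ∈ W (i + 1), φ (g • x) = g (φ x)) ∧
        ∀ c ∈ SEL.valuedIn K (W (i + 1)), SEL.MulUnitClassAt r (φ ∘ c))
    (_hgoodN : ∀ i < n, kind i = .eGood ∨ kind i = .mGood →
      ∀ c ∈ SEL.valuedIn K (W (i + 1)), ∀ A : ValuationSubring Qb, A.LiesOverPrime N →
        ∀ σ ∈ A.inertiaSubgroupIn ℚ, c σ ∈ W i),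
    Finite K ∧ Nat.card K ≤ ∏ i ∈ Finset.range n, (kind i).bound r

end Fermat.Agent.S15lib.Desc
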