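/-
S15lib / Desc / Basic  (helper7)  — Project E

Elementary facts behind the assembly of the Eisenstein descent:
* Hecke polynomials commute with `G_ℚ`, preserve torsion and (given `RedHeckeStmt`) the kernel of
  reduction;
* `VE p r K` is `G_ℚ`-stable, killed by `r^K`;
* the Kummer cocycle `kum p e h`: cocycle identity, additivity in `h`, level-constancy (given
  `ContStmt`), vanishing on inertia at the good primes `ℓ ∤ r p` (C0 + S18);
* `InertiaRedStmt` and `TorsInjPrimeToStmt` from main (`S37lib.C0.hinert`, `S18.result`,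
  `S37lib.B3.reductionInputsModL`).
-/
import Fermat.Agent.S15lib.Desc.Iface
import Fermat.Agent.S18
import Fermat.Agent.S37lib.B3.Inst
import Fermat.Agent.S37lib.C0.Wire

set_option autoImplicit false
set_option linter.style.haveILetI false
set_option linter.unusedSectionVars false

noncomputable section

namespace Fermat.Agent.S15lib.Desc

open AlgebraicCurve ModularCurve Fermat.Agent.S15lib

local notation "Qb" => AlgebraicClosure ℚ
local notation "GQ" => (AlgebraicClosure ℚ ≃ₐ[ℚ] AlgebraicClosure ℚ)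

/-! ### the two statements which are on main -/

theorem inertiaRedStmt : InertiaRedStmt := by
  intro p hp ℓ hℓ hℓp A hA
  haveI : NeZero p := ⟨hp.ne_zero⟩
  haveI : Fact ℓ.Prime := ⟨hℓ⟩
  have hℓN : ¬ ℓ ∣ p := fun h => hℓp ((Nat.prime_dvd_prime_iff_eq hℓ hp).1 h)
  exact Fermat.Agent.S37lib.C0.hinert p A hℓN hA

theorem torsInjPrimeToStmt : TorsInjPrimeToStmt := by
  intro p hp ℓ hℓ hℓp A hA
  haveI : NeZero p := ⟨hp.ne_zero⟩
  haveI : Fact ℓ.Prime := ⟨hℓ⟩
  have hℓN : ¬ ℓ ∣ p := fun h => hℓp ((Nat.prime_dvd_prime_iff_eq hℓ hp).1 h)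
  intro m hm z hmz hz
  exact Fermat.Agent.S18.result p hℓN A hA (Fermat.Agent.S37lib.B3.reductionInputsModL p A hℓN hA)
    m hm z hmz hz

section

variable {p : ℕ} [NeZero p]

/-! ### Galois action -/

theorem gsmul_zero (σ : GQ) : σ • (0 : JZero p) = 0 :=
  (DistribSMul.toAddMonoidHom (JZero p) σ).map_zero

theorem gsmul_add (σ : GQ) (x y : JZero p) : σ • (x + y) = σ • x + σ • y :=
  (DistribSMul.toAddMonoidHom (JZero p) σ).map_add x y

theorem gsmul_neg (σ : GQ) (x : JZero p) : σ • (-x) = -(σ • x) :=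
  (DistribSMul.toAddMonoidHom (JZero p) σ).map_neg x

theorem gsmul_sub (σ : GQ) (x y : JZero p) : σ • (x - y) = σ • x - σ • y :=
  (DistribSMul.toAddMonoidHom (JZero p) σ).map_sub x y

theorem gsmul_nsmul (σ : GQ) (m : ℕ) (x : JZero p) : σ • (m • x) = m • (σ • x) :=
  (DistribSMul.toAddMonoidHom (JZero p) σ).map_nsmul m x

theorem gmul_smul (σ τ : GQ) (x : JZero p) : (σ * τ) • x = σ • τ • x := mul_smul σ τ x

theorem gone_smul (x : JZero p) : (1 : GQ) • x = x := one_smul GQ x

theorem isRat_zero : IsRat (0 : JZero p) := fun σ => gsmul_zero σ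

theorem IsRat.add {x y : JZero p} (hx : IsRat x) (hy : IsRat y) : IsRat (x + y) := fun σ => by
  rw [gsmul_add, hx σ, hy σ]

theorem IsRat.neg {x : JZero p} (hx : IsRat x) : IsRat (-x) := fun σ => by
  rw [gsmul_neg, hx σ]

theorem IsRat.sub {x y : JZero p} (hx : IsRat x) (hy : IsRat y) : IsRat (x - y) := fun σ => by
  rw [gsmul_sub, hx σ, hy σ]

theorem IsRat.nsmul {x : JZero p} (hx : IsRat x) (m : ℕ) : IsRat (m • x) := fun σ => by
  rw [gsmul_nsmul, hx σ]

/-! ### Hecke polynomials -/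

theorem end_mul_apply (f g : AddMonoid.End (JZero p)) (x : JZero p) : (f * g) x = f (g x) := rfl

theorem end_add_apply (f g : AddMonoid.End (JZero p)) (x : JZero p) : (f + g) x = f x + g x := rfl

theorem end_neg_apply (f : AddMonoid.End (JZero p)) (x : JZero p) : (-f) x = -f x := rfl

theorem end_sub_apply (f g : AddMonoid.End (JZero p)) (x : JZero p) : (f - g) x = f x - g x := by
  rw [sub_eq_add_neg, end_add_apply, end_neg_apply, sub_eq_add_neg]

theorem end_natCast_apply (n : ℕ) (x : JZero p) : ((n : AddMonoid.End (JZero p))) x = n • x := rfl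

theorem end_one_apply (x : JZero p) : (1 : AddMonoid.End (JZero p)) x = x := rfl

theorem end_zero_apply (x : JZero p) : (0 : AddMonoid.End (JZero p)) x = 0 := rfl

/-- the endomorphisms commuting with `G_ℚ` form a subring -/
def galCommSubring (p : ℕ) [NeZero p] : Subring (AddMonoid.End (JZero p)) where
  carrier := {f | ∀ (σ : GQ) (x : JZero p), f (σ • x) = σ • f x}
  mul_mem' := fun {f g} hf hg σ x => by rw [end_mul_apply, end_mul_apply, hg, hf]
  one_mem' := fun σ x => rfl
  add_mem' := fun {f g} hf hg σ x => by rw [end_add_apply, end_add_apply, hf, hg, gsmul_add]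
  zero_mem' := fun σ x => by rw [end_zero_apply, end_zero_apply, gsmul_zero]
  neg_mem' := fun {f} hf σ x => by rw [end_neg_apply, end_neg_apply, hf, gsmul_neg]

theorem TJ_galois (q : Nat.Primes) (σ : GQ) (x : JZero p) : TJ p q (σ • x) = σ • TJ p q x :=
  Fermat.Agent.S29lib.GH.TJ_galois p q σ x

theorem heckeRing_le_galComm : heckeRing p ≤ galCommSubring p := by
  rw [heckeRing, Subring.closure_le]
  rintro T ⟨q, _, rfl⟩
  exact fun σ x => TJ_galois q σ x

/-- Hecke polynomials commute with `G_ℚ` -/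
theorem heckeRing_galois {e : AddMonoid.End (JZero p)} (he : e ∈ heckeRing p) (σ : GQ) (x : JZero p) :
    e (σ • x) = σ • e x :=
  heckeRing_le_galComm he σ x

theorem IsRat.hecke {e : AddMonoid.End (JZero p)} (he : e ∈ heckeRing p) {x : JZero p}
    (hx : IsRat x) : IsRat (e x) := fun σ => by
  rw [← heckeRing_galois he, hx σ]

/-- the endomorphisms preserving a given subgroup form a subring -/
def stabSubring (S : AddSubgroup (JZero p)) : Subring (AddMonoid.End (JZero p)) where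
  carrier := {f | ∀ x ∈ S, f x ∈ S}
  mul_mem' := fun {f g} hf hg x hx => hf _ (hg x hx)
  one_mem' := fun x hx => hx
  add_mem' := fun {f g} hf hg x hx => S.add_mem (hf x hx) (hg x hx)
  zero_mem' := fun x _ => S.zero_mem
  neg_mem' := fun {f} hf x hx => S.neg_mem (hf x hx)

/-- Hecke polynomials preserve the kernel of reduction (from `RedHeckeStmt`) -/
theorem heckeRing_kerRed (hRed : RedHeckeStmt) (hp : p.Prime) {ℓ : ℕ} (hℓ : ℓ.Prime) (hℓp : ℓ ≠ p)
    (A : ValuationSubring Qb) (hA : A.LiesOverPrime ℓ)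
    {e : AddMonoid.End (JZero p)} (he : e ∈ heckeRing p) {x : JZero p} (hx : x ∈ kerRed p A) :
    e x ∈ kerRed p A := by
  have hle : heckeRing p ≤ stabSubring (kerRed p A) := by
    rw [heckeRing, Subring.closure_le]
    rintro T ⟨q, hq, rfl⟩ z hz
    rw [kerRed, AddMonoidHom.mem_ker] at hz ⊢
    exact hRed hp hℓ hℓp A hA q hq z hz
  exact hle he x hx

/-! ### torsion and the Eisenstein part -/

theorem mem_tors {m : ℕ} {x : JZero p} : x ∈ tors p m ↔ m • x = 0 := by
  rw [tors, AddMonoidHom.mem_ker, nsmulAddMonoidHom_apply]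

theorem mem_VE {r K : ℕ} {x : JZero p} :
    x ∈ VE p r K ↔ r ^ K • x = 0 ∧
      ∀ q : Nat.Primes, (q : ℕ) ≠ p → ∃ j : ℕ, (eta p q ^ j) x = 0 := Iff.rfl

theorem VE_le_tors (r K : ℕ) : VE p r K ≤ tors p (r ^ K) := fun _ hx => mem_tors.2 hx.1

theorem eta_galois (q : Nat.Primes) (σ : GQ) (x : JZero p) : eta p q (σ • x) = σ • eta p q x := by
  rw [eta, end_sub_apply, end_sub_apply, TJ_galois, end_natCast_apply, end_natCast_apply,
    gsmul_sub, gsmul_nsmul]

theorem eta_pow_galois (q : Nat.Primes) (j : ℕ) (σ : GQ) (x : JZero p) :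
    (eta p q ^ j) (σ • x) = σ • (eta p q ^ j) x := by
  induction j generalizing x with
  | zero => rfl
  | succ j ih => rw [pow_succ, end_mul_apply, end_mul_apply, eta_galois, ih]

/-- `VE p r K` is stable under `G_ℚ` -/
theorem smul_mem_VE {r K : ℕ} (σ : GQ) {x : JZero p} (hx : x ∈ VE p r K) : σ • x ∈ VE p r K := by
  refine ⟨by rw [← gsmul_nsmul, hx.1, gsmul_zero], fun q hq => ?_⟩
  obtain ⟨j, hj⟩ := hx.2 q hq
  exact ⟨j, by rw [eta_pow_galois, hj, gsmul_zero]⟩

theorem smul_mem_tors {m : ℕ} (σ : GQ) {x : JZero p} (hx : x ∈ tors p m) : σ • x ∈ tors p m := by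
  rw [mem_tors] at hx ⊢
  rw [← gsmul_nsmul, hx, gsmul_zero]

theorem VE_mono (r : ℕ) {K K' : ℕ} (h : K ≤ K') : VE p r K ≤ VE p r K' := by
  intro x hx
  refine ⟨?_, hx.2⟩
  obtain ⟨d, rfl⟩ := Nat.exists_eq_add_of_le h
  rw [pow_add, mul_comm, mul_nsmul', hx.1, nsmul_zero]

/-! ### the Kummer cocycle -/

theorem kum_apply (e : AddMonoid.End (JZero p)) (h : JZero p) (σ : GQ) :
    kum p e h σ = e (σ • h - h) := rfl

theorem kum_add (e : AddMonoid.End (JZero p)) (h h' : JZero p) (σ : GQ) :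
    kum p e (h + h') σ = kum p e h σ + kum p e h' σ := by
  rw [kum_apply, kum_apply, kum_apply, ← map_add, gsmul_add]
  congr 1
  abel

theorem kum_neg (e : AddMonoid.End (JZero p)) (h : JZero p) (σ : GQ) :
    kum p e (-h) σ = -kum p e h σ := by
  rw [kum_apply, kum_apply, ← map_neg, gsmul_neg]
  congr 1
  abel

theorem kum_zero (e : AddMonoid.End (JZero p)) (σ : GQ) : kum p e 0 σ = 0 := by
  rw [kum_apply, gsmul_zero, sub_zero, map_zero]

/-- the cocycle identity -/
theorem kum_mul {e : AddMonoid.End (JZero p)} (he : e ∈ heckeRing p) (h : JZero p) (σ τ : GQ) :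
    kum p e h (σ * τ) = kum p e h σ + σ • kum p e h τ := by
  rw [kum_apply, kum_apply, kum_apply, ← heckeRing_galois he, ← map_add, gmul_smul, gsmul_sub]
  congr 1
  abel

/-- `σ h − h` is `m`-torsion when `m h` is rational -/
theorem smul_sub_mem_tors {m : ℕ} {h : JZero p} (hh : IsRat (m • h)) (σ : GQ) :
    σ • h - h ∈ tors p m := by
  rw [mem_tors, nsmul_sub, ← gsmul_nsmul, hh σ, sub_self]

/-- the Kummer cocycle takes values in the Eisenstein part -/
theorem kum_mem_VE {r K : ℕ} {e : AddMonoid.End (JZero p)}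
    (he1 : ∀ x : JZero p, r ^ K • x = 0 → e x ∈ VE p r K) {h : JZero p} (hh : IsRat (r ^ K • h))
    (σ : GQ) : kum p e h σ ∈ VE p r K :=
  he1 _ (mem_tors.1 (smul_sub_mem_tors hh σ))

/-- the Kummer cocycle of a point with open stabiliser is level-constant -/
theorem kum_levelConst (e : AddMonoid.End (JZero p)) {h : JZero p}
    {F : IntermediateField ℚ Qb} (hF : ∀ s : GQ, s ∈ F.fixingSubgroup → s • h = h)
    (g s : GQ) (hs : s ∈ F.fixingSubgroup) : kum p e h (g * s) = kum p e h g := by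
  rw [kum_apply, kum_apply, gmul_smul, hF s hs]

/-- the Kummer cocycle vanishes on the inertia groups at the good primes `ℓ ∤ r p` (C0 + S18) -/
theorem kum_inertia_eq_zero (hp : p.Prime) {r K : ℕ} (hr : r.Prime) {ℓ : ℕ} (hℓ : ℓ.Prime)
    (hℓp : ℓ ≠ p) (hℓr : ℓ ≠ r) (A : ValuationSubring Qb) (hA : A.LiesOverPrime ℓ)
    (e : AddMonoid.End (JZero p)) {h : JZero p} (hh : IsRat (r ^ K • h))
    {σ : GQ} (hσ : σ ∈ A.inertiaSubgroupIn ℚ) : kum p e h σ = 0 := by
  have h1 : σ • h - h ∈ tors p (r ^ K) := smul_sub_mem_tors hh σ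
  have h2 : reductionModL A p (σ • h - h) = 0 := by
    rw [map_sub, inertiaRedStmt hp hℓ hℓp A hA σ hσ h, sub_self]
  have h3 : ¬ ℓ ∣ r ^ K := fun hd =>
    hℓr ((Nat.prime_dvd_prime_iff_eq hℓ hr).1 (hℓ.dvd_of_dvd_pow hd))
  have h4 : σ • h - h = 0 :=
    torsInjPrimeToStmt hp hℓ hℓp A hA (r ^ K) h3 _ (mem_tors.1 h1) h2
  rw [kum_apply, h4, map_zero]

/-- on the inertia group at a place over `r` the Kummer cocycle takes values in the kernel of
reduction (C0 + `RedHeckeStmt`) -/
theorem kum_inertia_mem_kerRed (hRed : RedHeckeStmt) (hp : p.Prime) {ℓ : ℕ} (hℓ : ℓ.Prime)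
    (hℓp : ℓ ≠ p) (A : ValuationSubring Qb) (hA : A.LiesOverPrime ℓ)
    {e : AddMonoid.End (JZero p)} (he : e ∈ heckeRing p) (h : JZero p)
    {σ : GQ} (hσ : σ ∈ A.inertiaSubgroupIn ℚ) : kum p e h σ ∈ kerRed p A := by
  apply heckeRing_kerRed hRed hp hℓ hℓp A hA he
  rw [kerRed, AddMonoidHom.mem_ker, map_sub, inertiaRedStmt hp hℓ hℓp A hA σ hσ h, sub_self]

end

end Fermat.Agent.S15lib.Desc
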