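/-
S15lib / Desc / Sub  (helper7)  — Project E

`sel_ambient`: helper6's count `SelStmt` for a family of cocycles with values in a `G_ℚ`-stable
subgroup `V0` of an ambient `G_ℚ`-module `J` (the count itself is stated for a module `V`; here
`V = ↥V0`).  Also: conjugacy of the inertia groups over a prime, and transport of "unramified"
for additive characters.
-/
import Fermat.Agent.S15lib.Desc.Iface
import Fermat.Agent.S56lib.TWSel.Places

set_option autoImplicit false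
set_option linter.style.haveILetI false
set_option linter.unusedSectionVars false

noncomputable section

namespace Fermat.Agent.S15lib.Desc

open scoped Pointwise

local notation "Qb" => AlgebraicClosure ℚ
local notation "GQ" => (AlgebraicClosure ℚ ≃ₐ[ℚ] AlgebraicClosure ℚ)

/-! ### conjugacy of inertia groups -/

/-- the inertia groups of two places over the same prime are conjugate -/
theorem exists_conj_inertia {ℓ : ℕ} (hℓ : ℓ.Prime) {A A' : ValuationSubring Qb}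
    (hA : A.LiesOverPrime ℓ) (hA' : A'.LiesOverPrime ℓ) {σ' : GQ}
    (hσ' : σ' ∈ A'.inertiaSubgroupIn ℚ) :
    ∃ g : GQ, ∃ σ ∈ A.inertiaSubgroupIn ℚ, σ' = g * σ * g⁻¹ := by
  obtain ⟨g, hg⟩ := Fermat.Agent.S56lib.TWSel.exists_smul_eq_of_liesOverPrime hℓ hA hA'
  refine ⟨g, g⁻¹ * σ' * g, ?_, ?_⟩
  · have h1 := Fermat.Agent.S56lib.TWSel.conj_mem_inertia (A := A') (g := g⁻¹) hσ'
    rw [hg, inv_smul_smul, inv_inv] at h1
    exact h1
  · group

/-- an additive character of `G_ℚ` vanishing on the inertia group of one place over `ℓ` vanishes on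
the inertia groups of all places over `ℓ` -/
theorem addChar_unram_of_one {Q : Type*} [AddCommGroup Q] (χ : GQ → Q)
    (hχ : ∀ g h : GQ, χ (g * h) = χ g + χ h) {ℓ : ℕ} (hℓ : ℓ.Prime)
    {A : ValuationSubring Qb} (hA : A.LiesOverPrime ℓ)
    (h0 : ∀ σ ∈ A.inertiaSubgroupIn ℚ, χ σ = 0)
    (A' : ValuationSubring Qb) (hA' : A'.LiesOverPrime ℓ) (σ' : GQ)
    (hσ' : σ' ∈ A'.inertiaSubgroupIn ℚ) : χ σ' = 0 := by
  obtain ⟨g, σ, hσ, rfl⟩ := exists_conj_inertia hℓ hA hA' hσ'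
  have h1 : χ 1 = 0 := by
    have := hχ 1 1
    rw [mul_one] at this
    exact left_eq_add.mp this
  have h2 : χ g + χ g⁻¹ = 0 := by rw [← hχ, mul_inv_cancel, h1]
  rw [hχ, hχ, h0 σ hσ, add_zero, h2]

/-! ### the count for a stable subgroup -/

section Ambient

variable {J : Type} [AddCommGroup J] [DistribMulAction GQ J]

/-- the action of `G_ℚ` on a stable subgroup -/
@[reducible] def stableAction (V0 : AddSubgroup J) (hV0 : ∀ (g : GQ), ∀ x ∈ V0, g • x ∈ V0) :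
    DistribMulAction GQ V0 where
  smul g x := ⟨g • (x : J), hV0 g x x.2⟩
  one_smul x := Subtype.ext (one_smul GQ (x : J))
  mul_smul g h x := Subtype.ext (mul_smul g h (x : J))
  smul_zero g := Subtype.ext (smul_zero g)
  smul_add g x y := Subtype.ext (smul_add g (x : J) y)

/-- **the Selmer count in ambient form** -/
theorem sel_ambient (hSel : SelStmt) {r N : ℕ} (hr : r.Prime) (hN : N.Prime) (hrN : r ≠ N)
    (V0 : AddSubgroup J) (hV0 : ∀ (g : GQ), ∀ x ∈ V0, g • x ∈ V0)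
    (K : AddSubgroup (GQ → J)) (hKV : ∀ c ∈ K, ∀ σ, c σ ∈ V0)
    (hKc : ∀ c ∈ K, (∀ g h : GQ, c (g * h) = c g + g • c h) ∧ SEL.IsLevelConst c)
    (hKur : ∀ c ∈ K, ∀ ℓ : ℕ, ℓ.Prime → ℓ ≠ r → ℓ ≠ N →
      ∀ A : ValuationSubring Qb, A.LiesOverPrime ℓ → ∀ σ ∈ A.inertiaSubgroupIn ℚ, c σ = 0)
    (n : ℕ) (W : ℕ → AddSubgroup J) (hW0 : W 0 = ⊥) (hWn : W n = V0)
    (hmono : ∀ i < n, W i ≤ W (i + 1))
    (hstab : ∀ i ≤ n, ∀ (g : GQ), ∀ x ∈ W i, g • x ∈ W i)
    (kind : ℕ → SEL.Kind)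
    (hE : ∀ i < n, kind i = .eGood ∨ kind i = .eDefect →
      ∃ e : J → ZMod r,
        (∀ x ∈ W (i + 1), ∀ y ∈ W (i + 1), e (x + y) = e x + e y) ∧
        (∀ x ∈ W (i + 1), e x = 0 ↔ x ∈ W i) ∧
        (∀ (g : GQ), ∀ x ∈ W (i + 1), e (g • x) = e x) ∧
        ∀ c ∈ K, (∀ σ, c σ ∈ W (i + 1)) →
          ∀ A : ValuationSubring Qb, A.LiesOverPrime r →
            ∀ σ ∈ A.inertiaSubgroupIn ℚ, e (c σ) = 0)
    (hM : ∀ i < n, kind i = .mGood ∨ kind i = .mDefect →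
      ∃ φ : J → Qb,
        (∀ x ∈ W (i + 1), ∀ y ∈ W (i + 1), φ (x + y) = φ x * φ y) ∧
        (∀ x ∈ W (i + 1), φ x ^ r = 1) ∧
        (∀ x ∈ W (i + 1), φ x = 1 ↔ x ∈ W i) ∧
        (∀ (g : GQ), ∀ x ∈ W (i + 1), φ (g • x) = g (φ x)) ∧
        ∀ c ∈ K, (∀ σ, c σ ∈ W (i + 1)) →
          ∀ A : ValuationSubring Qb, A.LiesOverPrime r → ∃ β : Qb, A.valuation β = 1 ∧
            ∀ σ ∈ A.inertiaSubgroupIn ℚ, σ β = φ (c σ) * β)
    (hgoodN : ∀ i < n, kind i = .eGood ∨ kind i = .mGood →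
      ∀ c ∈ K, (∀ σ, c σ ∈ W (i + 1)) → ∀ A : ValuationSubring Qb, A.LiesOverPrime N →
        ∀ σ ∈ A.inertiaSubgroupIn ℚ, c σ ∈ W i) :
    Finite K ∧ Nat.card K ≤ ∏ i ∈ Finset.range n, (kind i).bound r := by
  letI : DistribMulAction GQ V0 := stableAction V0 hV0
  have hsmul : ∀ (g : GQ) (x : V0), ((g • x : V0) : J) = g • (x : J) := fun _ _ => rfl
  let ι : (GQ → V0) →+ (GQ → J) :=
    { toFun := fun c σ => (c σ : J)
      map_zero' := rfl
      map_add' := fun _ _ => rfl }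
  have hι : Function.Injective ι := fun a b h => funext fun σ => Subtype.ext (congrFun h σ)
  have hιa : ∀ (c : GQ → V0) (σ : GQ), ι c σ = (c σ : J) := fun _ _ => rfl
  let K' : AddSubgroup (GQ → V0) := K.comap ι
  have hK' : ∀ c : GQ → V0, c ∈ K' ↔ ι c ∈ K := fun c => Iff.rfl
  let W' : ℕ → AddSubgroup V0 := fun i => (W i).comap V0.subtype
  have hW' : ∀ (i : ℕ) (x : V0), x ∈ W' i ↔ (x : J) ∈ W i := fun i x => Iff.rfl
  have key := hSel hr hN hrN (V := V0) K'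
    (fun c hc => by
      obtain ⟨h1, F, hF, h2⟩ := hKc _ ((hK' c).1 hc)
      refine ⟨fun g h => Subtype.ext ?_, F, hF, fun g s hs => Subtype.ext ?_⟩
      · exact h1 g h
      · exact h2 g s hs)
    (fun c hc ℓ hℓ hℓr hℓN A hA σ hσ => Subtype.ext
      (hKur _ ((hK' c).1 hc) ℓ hℓ hℓr hℓN A hA σ hσ))
    n W'
    (by
      ext x
      rw [hW', hW0, AddSubgroup.mem_bot, AddSubgroup.mem_bot]
      exact ⟨fun h => Subtype.ext h, fun h => by rw [h]; rfl⟩)
    (by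
      ext x
      rw [hW', hWn]
      exact ⟨fun _ => AddSubgroup.mem_top _, fun _ => x.2⟩)
    (fun i hi x hx => hmono i hi hx)
    (fun i hi g x hx => hstab i hi g _ hx)
    kind
    (fun i hi hk => by
      obtain ⟨e, h1, h2, h3, h4⟩ := hE i hi hk
      refine ⟨fun x => e (x : J), fun x hx y hy => h1 _ hx _ hy, fun x hx => h2 _ hx,
        fun g x hx => h3 g _ hx, fun c hc A hA σ hσ => ?_⟩
      exact h4 _ ((hK' c).1 hc.1) (fun τ => hc.2 τ) A hA σ hσ)
    (fun i hi hk => by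
      obtain ⟨φ, h1, h2, h3, h4, h5⟩ := hM i hi hk
      refine ⟨fun x => φ (x : J), fun x hx y hy => h1 _ hx _ hy, fun x hx => h2 _ hx,
        fun x hx => h3 _ hx, fun g x hx => h4 g _ hx, fun c hc A hA => ?_⟩
      exact h5 _ ((hK' c).1 hc.1) (fun τ => hc.2 τ) A hA)
    (fun i hi hk c hc A hA σ hσ => hgoodN i hi hk _ ((hK' c).1 hc.1) (fun τ => hc.2 τ) A hA σ hσ)
  obtain ⟨hfin, hcard⟩ := key
  let f : K' → K := fun c => ⟨ι c.1, (hK' c.1).1 c.2⟩
  have hf : Function.Bijective f := by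
    constructor
    · intro a b hab
      exact Subtype.ext (hι (congrArg Subtype.val hab))
    · intro c
      refine ⟨⟨fun σ => ⟨c.1 σ, hKV c.1 c.2 σ⟩, ?_⟩, ?_⟩
      · rw [hK']
        exact c.2
      · exact Subtype.ext rfl
  have hcc : Nat.card K' = Nat.card K := Nat.card_congr (Equiv.ofBijective f hf)
  refine ⟨?_, hcc ▸ hcard⟩
  haveI := hfin
  exact Finite.of_surjective f hf.2

end Ambient

end Fermat.Agent.S15lib.Desc
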