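/-
S15lib / Desc / Local  (helper7)  — Project E

The local conditions of the Kummer cocycles along one piece `W ≤ W'` of the filtration:
* étale-tag (`(VE ⊓ ker red_{A₀}) ⊓ W' ≤ W`, `A₀ ∣ r`): unramified at all places over `r`;
* for `r = 2` the two kinds of pieces coincide; for odd `r` an étale-tag piece is not `μ_r` and a
  mult-tag piece is not `𝔽_r`;
* good at the level (`defectSub A₀ ⊓ W' ≤ W`, `A₀ ∣ p`): values in `W` on all inertia groups over `p`.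
-/
import Fermat.Agent.S15lib.Desc.Basic
import Fermat.Agent.S15lib.Desc.Sub

set_option autoImplicit false
set_option linter.style.haveILetI false
set_option linter.unusedSectionVars false

noncomputable section

namespace Fermat.Agent.S15lib.Desc

open AlgebraicCurve ModularCurve Fermat.Agent.S15lib
open scoped Pointwise

local notation "Qb" => AlgebraicClosure ℚ
local notation "GQ" => (AlgebraicClosure ℚ ≃ₐ[ℚ] AlgebraicClosure ℚ)

variable {p : ℕ} [NeZero p]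

/-! ### étale-tag pieces -/

/-- on an étale-tag piece of type `𝔽_r` the Kummer cocycles are unramified at every place over `r` -/
theorem etale_unram (hRed : RedHeckeStmt) (hp : p.Prime) {r K : ℕ} (hr : r.Prime) (hrp : r ≠ p)
    {e : AddMonoid.End (JZero p)} (he : e ∈ heckeRing p)
    (he1 : ∀ x : JZero p, r ^ K • x = 0 → e x ∈ VE p r K)
    {W W' : AddSubgroup (JZero p)} (hW' : ∀ (g : GQ), ∀ x ∈ W', g • x ∈ W')
    {A₀ : ValuationSubring Qb} (hA₀ : A₀.LiesOverPrime r)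
    (htag : (VE p r K ⊓ kerRed p A₀) ⊓ W' ≤ W)
    (e₀ : JZero p → ZMod r)
    (hadd : ∀ x ∈ W', ∀ y ∈ W', e₀ (x + y) = e₀ x + e₀ y)
    (hker : ∀ x ∈ W', e₀ x = 0 ↔ x ∈ W)
    (hinv : ∀ (g : GQ), ∀ x ∈ W', e₀ (g • x) = e₀ x)
    {h : JZero p} (hh : IsRat (r ^ K • h)) (hc : ∀ σ, kum p e h σ ∈ W')
    (A : ValuationSubring Qb) (hA : A.LiesOverPrime r) (σ : GQ)
    (hσ : σ ∈ A.inertiaSubgroupIn ℚ) : e₀ (kum p e h σ) = 0 := by
  refine addChar_unram_of_one (fun τ => e₀ (kum p e h τ)) ?_ hr hA₀ ?_ A hA σ hσ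
  · intro g k
    show e₀ (kum p e h (g * k)) = _
    rw [kum_mul he, hadd _ (hc g) _ (hW' g _ (hc k)), hinv g _ (hc k)]
  · intro τ hτ
    show e₀ (kum p e h τ) = 0
    rw [hker _ (hc τ)]
    exact htag ⟨⟨kum_mem_VE he1 hh τ, kum_inertia_mem_kerRed hRed hp hr hrp A₀ hA₀ he h hτ⟩, hc τ⟩

/-! ### `r = 2`: the two kinds of pieces coincide -/

theorem neg_one_ne_one_Qb : (-1 : Qb) ≠ 1 := by
  intro h
  have h2 : (2 : Qb) = 0 := by
    have : (1 : Qb) + 1 = 0 := by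
      nth_rewrite 1 [← h]
      ring
    rw [← this]; norm_num
  exact two_ne_zero h2

theorem triv_of_cyc_two {W W' : AddSubgroup (JZero p)} (h : CycPiece p 2 W W') :
    TrivPiece p 2 W W' := by
  classical
  obtain ⟨φ, hmul, hpow, hker, hequiv⟩ := h
  have hpm : ∀ x ∈ W', φ x = 1 ∨ φ x = -1 := fun x hx =>
    mul_self_eq_one_iff.1 (by rw [← sq]; exact hpow x hx)
  have h10 : (1 : ZMod 2) ≠ 0 := by decide
  refine ⟨fun x => if φ x = 1 then 0 else 1, fun x hx y hy => ?_, fun x hx => ?_,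
    fun g x hx => ?_⟩
  · show (if φ (x + y) = 1 then (0 : ZMod 2) else 1) =
      (if φ x = 1 then (0 : ZMod 2) else 1) + (if φ y = 1 then (0 : ZMod 2) else 1)
    rw [hmul x hx y hy]
    rcases hpm x hx with h1 | h1 <;> rcases hpm y hy with h2 | h2 <;> rw [h1, h2]
    · simp
    · simp [neg_one_ne_one_Qb]
    · simp [neg_one_ne_one_Qb]
    · simp [neg_one_ne_one_Qb]
      decide
  · show (if φ x = 1 then (0 : ZMod 2) else 1) = 0 ↔ x ∈ W
    rw [← hker x hx]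
    by_cases h1 : φ x = 1
    · simp [h1]
    · simp [h1]
  · show (if φ (g • x) = 1 then (0 : ZMod 2) else 1) = (if φ x = 1 then (0 : ZMod 2) else 1)
    rw [hequiv g x hx]
    rcases hpm x hx with h1 | h1 <;> rw [h1]
    · rw [map_one]
    · rw [map_neg, map_one]

theorem cyc_of_triv_two {W W' : AddSubgroup (JZero p)} (h : TrivPiece p 2 W W') :
    CycPiece p 2 W W' := by
  classical
  obtain ⟨e₀, hadd, hker, hinv⟩ := h
  have h01 : ∀ z : ZMod 2, z = 0 ∨ z = 1 := by decide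
  refine ⟨fun x => if e₀ x = 0 then 1 else -1, fun x hx y hy => ?_, fun x hx => ?_,
    fun x hx => ?_, fun g x hx => ?_⟩
  · show (if e₀ (x + y) = 0 then (1 : Qb) else -1) =
      (if e₀ x = 0 then (1 : Qb) else -1) * (if e₀ y = 0 then (1 : Qb) else -1)
    rw [hadd x hx y hy]
    rcases h01 (e₀ x) with h1 | h1 <;> rcases h01 (e₀ y) with h2 | h2 <;> rw [h1, h2]
    · simp
    · simp
    · simp
    · have : (1 : ZMod 2) + 1 = 0 := by decide
      simp [this]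
  · show (if e₀ x = 0 then (1 : Qb) else -1) ^ 2 = 1
    by_cases h1 : e₀ x = 0
    · simp [h1]
    · simp [h1]
  · show (if e₀ x = 0 then (1 : Qb) else -1) = 1 ↔ x ∈ W
    rw [← hker x hx]
    by_cases h1 : e₀ x = 0
    · simp [h1]
    · simp [h1, neg_one_ne_one_Qb]
  · show (if e₀ (g • x) = 0 then (1 : Qb) else -1) = g (if e₀ x = 0 then (1 : Qb) else -1)
    rw [hinv g x hx]
    by_cases h1 : e₀ x = 0
    · simp [h1]
    · simp [h1]

/-! ### odd `r`: an étale-tag piece is not `μ_r` -/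

/-- a nontrivial `r`-th root of unity generates the `r`-th roots of unity -/
theorem exists_pow_eq_of_root {r : ℕ} (hr : r.Prime) {ζ₀ ζ : Qb} (h0 : ζ₀ ^ r = 1) (h1 : ζ₀ ≠ 1)
    (hζ : ζ ^ r = 1) : ∃ i < r, ζ₀ ^ i = ζ := by
  haveI : Fact r.Prime := ⟨hr⟩
  haveI : NeZero r := ⟨hr.ne_zero⟩
  have ho : orderOf ζ₀ = r := orderOf_eq_prime h0 h1
  have hprim : IsPrimitiveRoot ζ₀ r := ho ▸ IsPrimitiveRoot.orderOf ζ₀
  exact hprim.eq_pow_of_pow_eq_one hζ

theorem cyc_etale_odd_false (hCyc : CycloRamStmt) (hp : p.Prime) {r K : ℕ} (hr : r.Prime)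
    (hrp : r ≠ p) (hr2 : r ≠ 2)
    {W W' : AddSubgroup (JZero p)} (hW' : ∀ (g : GQ), ∀ x ∈ W', g • x ∈ W')
    (hW'VE : W' ≤ VE p r K)
    {A₀ : ValuationSubring Qb} (hA₀ : A₀.LiesOverPrime r)
    (htag : (VE p r K ⊓ kerRed p A₀) ⊓ W' ≤ W)
    (φ : JZero p → Qb)
    (hmul : ∀ x ∈ W', ∀ y ∈ W', φ (x + y) = φ x * φ y)
    (hpow : ∀ x ∈ W', φ x ^ r = 1)
    (hker : ∀ x ∈ W', φ x = 1 ↔ x ∈ W)
    (hequiv : ∀ (g : GQ), ∀ x ∈ W', φ (g • x) = g (φ x))
    {x : JZero p} (hx : x ∈ W') (hxW : x ∉ W) : False := by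
  obtain ⟨σ, hσ, ζ, hζ, hσζ⟩ := hCyc hr hr2 A₀ hA₀
  have h1 : φ x ≠ 1 := fun h => hxW ((hker x hx).1 h)
  obtain ⟨i, -, hi⟩ := exists_pow_eq_of_root hr (hpow x hx) h1 hζ
  have hσx : σ (φ x) ≠ φ x := by
    intro h
    apply hσζ
    rw [← hi, map_pow, h]
  set y : JZero p := σ • x - x with hy
  have hyW' : y ∈ W' := W'.sub_mem (hW' σ x hx) hx
  have hyred : y ∈ kerRed p A₀ := by
    rw [kerRed, AddMonoidHom.mem_ker, hy, map_sub, inertiaRedStmt hp hr hrp A₀ hA₀ σ hσ x,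
      sub_self]
  have hyW : y ∈ W := htag ⟨⟨hW'VE hyW', hyred⟩, hyW'⟩
  have h2 : φ (y + x) = φ y * φ x := hmul y hyW' x hx
  have h3 : y + x = σ • x := by rw [hy]; abel
  rw [h3, hequiv σ x hx, (hker y hyW').2 hyW, one_mul] at h2
  exact hσx h2

/-! ### odd `r`: a mult-tag piece is not `𝔽_r` -/

theorem triv_mult_odd_false (hCyc : CycloRamStmt) (hMt : Mt1Stmt) (hp : p.Prime)
    (hp' : p ∉ ({2, 3, 5, 7, 13} : Finset ℕ)) {r K : ℕ} (hr : r.Prime)
    (hrp : r ≠ p) (hr2 : r ≠ 2)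
    {W W' : AddSubgroup (JZero p)} (hW' : ∀ (g : GQ), ∀ x ∈ W', g • x ∈ W')
    (hWW' : W ≤ W')
    {A₀ : ValuationSubring Qb} (hA₀ : A₀.LiesOverPrime r)
    (e₀ : JZero p → ZMod r)
    (hadd : ∀ x ∈ W', ∀ y ∈ W', e₀ (x + y) = e₀ x + e₀ y)
    (hker : ∀ x ∈ W', e₀ x = 0 ↔ x ∈ W)
    (hinv : ∀ (g : GQ), ∀ x ∈ W', e₀ (g • x) = e₀ x)
    {y : JZero p} (hyVE : y ∈ VE p r K) (hyRed : y ∈ kerRed p A₀) (hyW' : y ∈ W')
    (hyW : y ∉ W) : False := by
  haveI : Fact r.Prime := ⟨hr⟩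
  obtain ⟨σ, hσ, ζ, hζ, hσζ⟩ := hCyc hr hr2 A₀ hA₀
  have hζ1 : ζ ≠ 1 := by
    rintro rfl
    exact hσζ (map_one σ)
  have hσζr : (σ ζ) ^ r = 1 := by rw [← map_pow, hζ, map_one]
  obtain ⟨a, har, ha⟩ := exists_pow_eq_of_root hr hζ hζ1 hσζr
  have ha1 : a ≠ 1 := by
    rintro rfl
    rw [pow_one] at ha
    exact hσζ ha.symm
  have hall : ∀ ζ' : Qb, ζ' ^ r = 1 → σ ζ' = ζ' ^ a := by
    intro ζ' hζ'
    obtain ⟨i, -, rfl⟩ := exists_pow_eq_of_root hr hζ hζ1 hζ'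
    rw [map_pow, ← ha, ← pow_mul, ← pow_mul, mul_comm]
  have hmt := hMt hp hp' hr hrp hr2 A₀ hA₀ σ hσ a hall
  -- `(a : ZMod r) ≠ 1`
  have har1 : (1 : ZMod r) - (a : ZMod r) ≠ 0 := by
    intro h
    have h1 : ((a : ℕ) : ZMod r) = ((1 : ℕ) : ZMod r) := by
      rw [Nat.cast_one]; exact (sub_eq_zero.1 h).symm
    rw [ZMod.natCast_eq_natCast_iff'] at h1
    rw [Nat.mod_eq_of_lt har, Nat.mod_eq_of_lt hr.one_lt] at h1
    exact ha1 h1
  -- the operator `D = σ - a`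
  let D : JZero p → JZero p := fun z => σ • z - a • z
  have hDnsmul : ∀ (m : ℕ) (z : JZero p), D (m • z) = m • D z := by
    intro m z
    show σ • (m • z) - a • (m • z) = m • (σ • z - a • z)
    rw [gsmul_nsmul, nsmul_sub, nsmul_left_comm]
  have hDred : ∀ z ∈ kerRed p A₀, D z ∈ kerRed p A₀ := by
    intro z hz
    rw [kerRed, AddMonoidHom.mem_ker] at hz ⊢
    show reductionModL A₀ p (σ • z - a • z) = 0
    rw [map_sub, inertiaRedStmt hp hr hrp A₀ hA₀ σ hσ z, map_nsmul, hz, nsmul_zero, sub_zero]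
  have hDVE : ∀ (j : ℕ), ∀ z ∈ VE p r j, D z ∈ VE p r j := fun j z hz =>
    (VE p r j).sub_mem (smul_mem_VE σ hz) ((VE p r j).nsmul_mem hz a)
  -- nilpotency of `D` on the kernel of reduction
  have hnil : ∀ (j : ℕ), ∀ z ∈ VE p r j, z ∈ kerRed p A₀ → D^[j] z = 0 := by
    intro j
    induction j with
    | zero =>
      intro z hz _
      have := hz.1
      rw [pow_zero, one_nsmul] at this
      rw [Function.iterate_zero, id, this]
    | succ j ih =>
      intro z hz hzred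
      rw [Function.iterate_succ_apply]
      refine ih (D z) ⟨?_, (hDVE (j + 1) z hz).2⟩ (hDred z hzred)
      rw [← hDnsmul]
      have h1 : r ^ j • z ∈ VE p r 1 ⊓ kerRed p A₀ := by
        refine ⟨⟨?_, ((VE p r (j + 1)).nsmul_mem hz (r ^ j)).2⟩, (kerRed p A₀).nsmul_mem hzred _⟩
        rw [pow_one, ← mul_nsmul', ← pow_succ']
        exact hz.1
      have h2 := hmt _ h1
      show σ • (r ^ j • z) - a • (r ^ j • z) = 0
      rw [h2, sub_self]
  -- `e₀` on `W'`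
  have he0 : e₀ 0 = 0 := (hker 0 W'.zero_mem).2 W.zero_mem
  have heneg : ∀ z ∈ W', e₀ (-z) = -e₀ z := by
    intro z hz
    have := hadd z hz (-z) (W'.neg_mem hz)
    rw [add_neg_cancel, he0] at this
    exact (neg_eq_of_add_eq_zero_right this.symm).symm
  have hensmul : ∀ (m : ℕ), ∀ z ∈ W', e₀ (m • z) = (m : ZMod r) * e₀ z := by
    intro m z hz
    induction m with
    | zero => rw [zero_nsmul, he0, Nat.cast_zero, zero_mul]
    | succ m ih =>
      rw [succ_nsmul, hadd _ (W'.nsmul_mem hz m) _ hz, ih, Nat.cast_succ, add_mul, one_mul]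
  have hDW' : ∀ z ∈ W', D z ∈ W' := fun z hz =>
    W'.sub_mem (hW' σ z hz) (W'.nsmul_mem hz a)
  have heD : ∀ z ∈ W', e₀ (D z) = (1 - (a : ZMod r)) * e₀ z := by
    intro z hz
    show e₀ (σ • z - a • z) = _
    rw [sub_eq_add_neg, hadd _ (hW' σ z hz) _ (W'.neg_mem (W'.nsmul_mem hz a)),
      heneg _ (W'.nsmul_mem hz a), hensmul a z hz, hinv σ z hz]
    ring
  have hiter : ∀ j : ℕ, D^[j] y ∈ W' ∧ e₀ (D^[j] y) = (1 - (a : ZMod r)) ^ j * e₀ y := by
    intro j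
    induction j with
    | zero => exact ⟨hyW', by rw [Function.iterate_zero, id, pow_zero, one_mul]⟩
    | succ j ih =>
      rw [Function.iterate_succ_apply']
      refine ⟨hDW' _ ih.1, ?_⟩
      rw [heD _ ih.1, ih.2, pow_succ]
      ring
  have h0 := (hiter K).2
  rw [hnil K y hyVE hyRed, he0] at h0
  have hy0 : e₀ y ≠ 0 := fun h => hyW ((hker y hyW').1 h)
  exact mul_ne_zero (pow_ne_zero K har1) hy0 h0.symm

/-! ### pieces which are good at the level -/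

/-- the defect subgroup at a conjugate place -/
theorem defectSub_conj (r K : ℕ) (A₀ : ValuationSubring Qb) (g : GQ) {z : JZero p}
    (hz : z ∈ defectSub p r K (g • A₀)) : g⁻¹ • z ∈ defectSub p r K A₀ := by
  have hle : defectSub p r K (g • A₀) ≤
      (defectSub p r K A₀).comap (DistribSMul.toAddMonoidHom (JZero p) g⁻¹) := by
    rw [defectSub, AddSubgroup.closure_le]
    rintro _ ⟨σ', hσ', x, hx, rfl⟩
    show g⁻¹ • (σ' • x - x) ∈ defectSub p r K A₀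
    have h1 := Fermat.Agent.S56lib.TWSel.conj_mem_inertia (A := g • A₀) (g := g⁻¹) hσ'
    rw [inv_smul_smul, inv_inv] at h1
    refine AddSubgroup.subset_closure ⟨g⁻¹ * σ' * g, h1, g⁻¹ • x, smul_mem_VE g⁻¹ hx, ?_⟩
    rw [gsmul_sub, gmul_smul, gmul_smul, ← gmul_smul g, mul_inv_cancel, gone_smul]
  exact hle hz

theorem good_level (hp : p.Prime) {r K : ℕ}
    {e : AddMonoid.End (JZero p)} (he : e ∈ heckeRing p)
    (he1 : ∀ x : JZero p, r ^ K • x = 0 → e x ∈ VE p r K)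
    {W W' : AddSubgroup (JZero p)} (hW : ∀ (g : GQ), ∀ x ∈ W, g • x ∈ W)
    (hW' : ∀ (g : GQ), ∀ x ∈ W', g • x ∈ W')
    {A₀ : ValuationSubring Qb} (hA₀ : A₀.LiesOverPrime p)
    (htag : defectSub p r K A₀ ⊓ W' ≤ W)
    {h : JZero p} (hG0 : IsG0 p r K (r ^ K • h)) (hc : ∀ σ, kum p e h σ ∈ W')
    (A : ValuationSubring Qb) (hA : A.LiesOverPrime p) (σ : GQ)
    (hσ : σ ∈ A.inertiaSubgroupIn ℚ) : kum p e h σ ∈ W := by
  obtain ⟨h', hh', hfix⟩ := hG0.2 A hA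
  have ht : r ^ K • (h - h') = 0 := by rw [nsmul_sub, hh', sub_self]
  have h1 : σ • h - h = σ • (h - h') - (h - h') := by
    rw [gsmul_sub, hfix σ hσ]; abel
  have h2 : kum p e h σ = σ • e (h - h') - e (h - h') := by
    rw [kum_apply, h1, map_sub, heckeRing_galois he]
  have h3 : kum p e h σ ∈ defectSub p r K A := by
    rw [h2]
    exact AddSubgroup.subset_closure ⟨σ, hσ, e (h - h'), he1 _ ht, rfl⟩
  obtain ⟨g, rfl⟩ := Fermat.Agent.S56lib.TWSel.exists_smul_eq_of_liesOverPrime hp hA₀ hA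
  have h4 : g⁻¹ • kum p e h σ ∈ W :=
    htag ⟨defectSub_conj r K A₀ g h3, hW' g⁻¹ _ (hc σ)⟩
  have h5 := hW g _ h4
  rwa [← gmul_smul, mul_inv_cancel, gone_smul] at h5

end Fermat.Agent.S15lib.Desc
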