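/-
S15lib / Desc / Bound  (helper7)  — Project E

* `cycloRamStmt`            (main: `S56lib.Tame.exists_inertia_moves`);
* finiteness of `J[r^K]`, `VE p r K`  (main: `S35lib.New.comparisonDataAt`);
* `card_defectSub_sq_le` :  `|defectSub A|² ≤ |VE|`  for `A ∣ p`  (tame generator + unipotence);
* `prod_bound_le`        :  `∏ bound ≤ |VE|`  (tag count + `OrdStmt` + the above);
* `nsmul_factorial_mem_range` : the index argument (a subgroup of order `≤ |V|` containing the image of
  `δ : V → X` is killed modulo that image by `B₀!`, `|ker δ| ≤ B₀`).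
-/
import Fermat.Agent.S15lib.Desc.Local
import Fermat.Agent.S15lib.Desc.Count
import Fermat.Agent.S35lib.New.KillerJ
import Fermat.Agent.S56lib.Tame.CycloInertia

set_option autoImplicit false
set_option linter.style.haveILetI false
set_option linter.unusedSectionVars false

noncomputable section

namespace Fermat.Agent.S15lib.Desc

open AlgebraicCurve ModularCurve Fermat.Agent.S15lib
open scoped Pointwise BigOperators

local notation "Qb" => AlgebraicClosure ℚ
local notation "GQ" => (AlgebraicClosure ℚ ≃ₐ[ℚ] AlgebraicClosure ℚ)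

/-! ### `ℚ(ζ_r)` is ramified at `r` -/

theorem cycloRamStmt : CycloRamStmt := by
  intro r hr hr2 A hA
  haveI : Fact r.Prime := ⟨hr⟩
  obtain ⟨σ, hσ, ζ, hζ, hne⟩ := Fermat.Agent.S56lib.Tame.exists_inertia_moves r hr2 A hA
  exact ⟨σ, hσ, ζ, hζ.pow_eq_one, hne⟩

/-! ### pure group theory -/

theorem card_range_sq_le {V : Type*} [AddCommGroup V] [Finite V] (ψ : V →+ V)
    (h : ∀ v, ψ (ψ v) = 0) : Nat.card ψ.range ^ 2 ≤ Nat.card V := by
  have hle : ψ.range ≤ ψ.ker := by
    rintro _ ⟨v, rfl⟩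
    exact h v
  have h1 : Nat.card V = Nat.card (V ⧸ ψ.ker) * Nat.card ψ.ker :=
    AddSubgroup.card_eq_card_quotient_mul_card_addSubgroup ψ.ker
  have h2 : Nat.card (V ⧸ ψ.ker) = Nat.card ψ.range :=
    Nat.card_congr (QuotientAddGroup.quotientKerEquivRange ψ).toEquiv
  have h3 : Nat.card ψ.range ≤ Nat.card ψ.ker :=
    Nat.card_le_card_of_injective (AddSubgroup.inclusion hle) (AddSubgroup.inclusion_injective hle)
  rw [h1, h2, sq]
  exact Nat.mul_le_mul_left _ h3

/-- **the index argument** -/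
theorem nsmul_factorial_mem_range {V X : Type*} [AddCommGroup V] [AddCommGroup X] [Finite V]
    (δ : V →+ X) (K' : AddSubgroup X) [Finite K'] (hle : δ.range ≤ K')
    (hcard : Nat.card K' ≤ Nat.card V) (B₀ : ℕ) (hB₀ : Nat.card δ.ker ≤ B₀)
    (c : X) (hc : c ∈ K') : (Nat.factorial B₀) • c ∈ δ.range := by
  haveI : Finite δ.range :=
    Finite.of_injective (AddSubgroup.inclusion hle) (AddSubgroup.inclusion_injective hle)
  set H : AddSubgroup K' := δ.range.addSubgroupOf K' with hH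
  have h1 : Nat.card H * H.index = Nat.card K' := AddSubgroup.card_mul_index H
  have h2 : Nat.card H = Nat.card δ.range :=
    Nat.card_congr (AddSubgroup.addSubgroupOfEquivOfLe hle).toEquiv
  have h3 : Nat.card V = Nat.card (V ⧸ δ.ker) * Nat.card δ.ker :=
    AddSubgroup.card_eq_card_quotient_mul_card_addSubgroup _
  have h4 : Nat.card (V ⧸ δ.ker) = Nat.card δ.range :=
    Nat.card_congr (QuotientAddGroup.quotientKerEquivRange δ).toEquiv
  have hpos : 0 < Nat.card δ.range := Nat.card_pos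
  have h5 : H.index ≤ Nat.card δ.ker := by
    have : Nat.card δ.range * H.index ≤ Nat.card δ.range * Nat.card δ.ker := by
      rw [← h2, h1, h2, ← h4, ← h3]
      exact hcard
    exact Nat.le_of_mul_le_mul_left this hpos
  have h6 : H.index ≠ 0 := AddSubgroup.index_ne_zero_of_finite
  obtain ⟨m, hm⟩ : H.index ∣ Nat.factorial B₀ := Nat.dvd_factorial (Nat.pos_of_ne_zero h6) (h5.trans hB₀)
  have h8 : H.index • (⟨c, hc⟩ : K') ∈ H := AddSubgroup.nsmul_index_mem H _
  have h9 : (Nat.factorial B₀) • (⟨c, hc⟩ : K') ∈ H := by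
    rw [hm, mul_nsmul]
    exact H.nsmul_mem h8 m
  exact h9

theorem mul_le_of_sq_le {a b c : ℕ} (ha : a ^ 2 ≤ c) (hb : b ^ 2 ≤ c) : a * b ≤ c := by
  have h : (a * b) ^ 2 ≤ c ^ 2 := by
    rw [mul_pow, sq c]
    exact Nat.mul_le_mul ha hb
  exact (Nat.pow_le_pow_iff_left (by norm_num)).1 h

/-! ### finiteness -/

variable {p : ℕ} [NeZero p]

theorem finite_tors {r : ℕ} (hr : r.Prime) (K : ℕ) : Finite ↥(tors p (r ^ K)) := by
  haveI : NeZero (r ^ K) := ⟨pow_ne_zero K hr.ne_zero⟩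
  let C := Fermat.Agent.S35lib.New.comparisonDataAt p hr
  haveI : Finite ↥(Fermat.Agent.S29lib.Tors p (r ^ K)) :=
    Finite.of_equiv _ (C.κ K).symm.toEquiv
  have hmem : ∀ x : ↥(tors p (r ^ K)), (x : JZero p) ∈ Fermat.Agent.S29lib.Tors p (r ^ K) := by
    intro x
    rw [Submodule.mem_torsionBy_iff, natCast_zsmul]
    exact mem_tors.1 x.2
  exact Finite.of_injective
    (fun x : ↥(tors p (r ^ K)) => (⟨x.1, hmem x⟩ : ↥(Fermat.Agent.S29lib.Tors p (r ^ K))))
    (fun a b h => Subtype.ext (congrArg (fun z : ↥(Fermat.Agent.S29lib.Tors p (r ^ K)) =>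
      (z : JZero p)) h))

theorem finite_VE {r : ℕ} (hr : r.Prime) (K : ℕ) : Finite ↥(VE p r K) := by
  haveI := finite_tors (p := p) hr K
  exact Finite.of_injective (AddSubgroup.inclusion (VE_le_tors r K))
    (AddSubgroup.inclusion_injective _)

/-! ### the defect subgroup -/

theorem exists_geom (S : AddSubgroup (JZero p)) (hS : ∀ (g : GQ), ∀ y ∈ S, g • y ∈ S) (τ : GQ)
    {x : JZero p} (hx : x ∈ S) (j : ℕ) : ∃ s ∈ S, τ ^ j • x - x = τ • s - s := by
  induction j with
  | zero => exact ⟨0, S.zero_mem, by rw [pow_zero, gone_smul, sub_self, gsmul_zero, sub_self]⟩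
  | succ j ih =>
    obtain ⟨s, hs, h⟩ := ih
    refine ⟨x + τ • s, S.add_mem hx (hS τ s hs), ?_⟩
    have h1 : τ • τ ^ j • x = τ • (τ • s - s) + τ • x := by
      rw [← h, gsmul_sub]; abel
    rw [pow_succ', gmul_smul, gsmul_add, h1, gsmul_sub]
    abel

theorem defectSub_le_VE (r K : ℕ) (A : ValuationSubring Qb) : defectSub p r K A ≤ VE p r K := by
  rw [defectSub, AddSubgroup.closure_le]
  rintro _ ⟨σ, -, x, hx, rfl⟩
  exact (VE p r K).sub_mem (smul_mem_VE σ hx) hx

theorem card_defectSub_sq_le (hTame : LocNTameStmt) (hUnip : LocNUnipStmt) (hp : p.Prime)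
    (hp5 : 5 ≤ p) {r : ℕ} (hr : r.Prime) (hrp : r ≠ p) (K : ℕ) (A : ValuationSubring Qb)
    (hA : A.LiesOverPrime p) :
    Nat.card ↥(defectSub p r K A) ^ 2 ≤ Nat.card ↥(VE p r K) := by
  haveI := finite_VE (p := p) hr K
  obtain ⟨τ, hτ, hgen⟩ := hTame hp hr hrp K A hA
  have hun := hUnip hp hp5 hr hrp K A hA τ hτ
  let ψ : ↥(VE p r K) →+ ↥(VE p r K) :=
    { toFun := fun v => ⟨τ • (v : JZero p) - v, (VE p r K).sub_mem (smul_mem_VE τ v.2) v.2⟩
      map_zero' := Subtype.ext (by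
        show τ • (0 : JZero p) - 0 = 0
        rw [gsmul_zero, sub_zero])
      map_add' := fun a b => Subtype.ext (by
        show τ • ((a : JZero p) + b) - (a + b) = (τ • (a : JZero p) - a) + (τ • (b : JZero p) - b)
        rw [gsmul_add]; abel) }
  have hψ : ∀ v : ↥(VE p r K), ((ψ v : ↥(VE p r K)) : JZero p) = τ • (v : JZero p) - v :=
    fun _ => rfl
  have hψψ : ∀ v, ψ (ψ v) = 0 := by
    intro v
    apply Subtype.ext
    rw [hψ, hψ, AddSubgroup.coe_zero, gsmul_sub]
    have := hun (v : JZero p) v.2.1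
    rw [← this]; abel
  have hsq := card_range_sq_le ψ hψψ
  refine le_trans (Nat.pow_le_pow_left ?_ 2) hsq
  -- `defectSub ≤ ψ(VE)`
  have hle : ∀ z ∈ defectSub p r K A, ∃ w : ↥(VE p r K), w ∈ ψ.range ∧ (w : JZero p) = z := by
    have hle' : defectSub p r K A ≤ (ψ.range).map (VE p r K).subtype := by
      rw [defectSub, AddSubgroup.closure_le]
      rintro _ ⟨σ, hσ, x, hx, rfl⟩
      obtain ⟨j, hj⟩ := hgen σ hσ
      obtain ⟨s, hs, hs'⟩ := exists_geom (VE p r K) (fun g y hy => smul_mem_VE g hy) τ hx j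
      refine ⟨ψ ⟨s, hs⟩, ⟨⟨s, hs⟩, rfl⟩, ?_⟩
      show τ • s - s = σ • x - x
      rw [← hs', hj x hx.1]
    intro z hz
    obtain ⟨w, hw, hwz⟩ := hle' hz
    exact ⟨w, hw, hwz⟩
  choose f hf1 hf2 using hle
  exact Nat.card_le_card_of_injective
    (fun z : ↥(defectSub p r K A) => (⟨f z.1 z.2, hf1 z.1 z.2⟩ : ↥ψ.range))
    (fun a b h => Subtype.ext (by
      have := congrArg (fun w : ↥ψ.range => ((w : ↥(VE p r K)) : JZero p)) h
      simp only [hf2] at this
      exact this))

/-! ### the kinds and the product of the bounds -/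

open Classical in
/-- the kind of a piece from its two tags -/
def kindOf (m d : Prop) : SEL.Kind :=
  if m then (if d then .mDefect else .mGood) else (if d then .eDefect else .eGood)

open Classical in
theorem kindOf_bound (r : ℕ) (m d : Prop) :
    (kindOf m d).bound r = (if m then r else 1) * (if d then r else 1) := by
  unfold kindOf
  by_cases hm : m <;> by_cases hd : d <;> simp [hm, hd, SEL.Kind.bound, sq]

theorem kindOf_e {m d : Prop} (h : kindOf m d = .eGood ∨ kindOf m d = .eDefect) : ¬ m := by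
  classical
  intro hm
  unfold kindOf at h
  by_cases hd : d <;> simp [hm, hd] at h

theorem kindOf_m {m d : Prop} (h : kindOf m d = .mGood ∨ kindOf m d = .mDefect) : m := by
  classical
  by_contra hm
  unfold kindOf at h
  by_cases hd : d <;> simp [hm, hd] at h

theorem kindOf_good {m d : Prop} (h : kindOf m d = .eGood ∨ kindOf m d = .mGood) : ¬ d := by
  classical
  intro hd
  unfold kindOf at h
  by_cases hm : m <;> simp [hm, hd] at h

/-- the `r`-th multiple of a piece of type `𝔽_r` or `μ_r` lands in the smaller subgroup -/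
theorem piece_exp {r : ℕ} (hr : r.Prime) {W W' : AddSubgroup (JZero p)}
    (h : TrivPiece p r W W' ∨ CycPiece p r W W') : ∀ x ∈ W', r • x ∈ W := by
  haveI : Fact r.Prime := ⟨hr⟩
  intro x hx
  rcases h with ⟨e₀, hadd, hker, -⟩ | ⟨φ, hmul, hpow, hker, -⟩
  · have he0 : e₀ 0 = 0 := (hker 0 W'.zero_mem).2 W.zero_mem
    have hn : ∀ m : ℕ, e₀ (m • x) = (m : ZMod r) * e₀ x := by
      intro m
      induction m with
      | zero => rw [zero_nsmul, he0, Nat.cast_zero, zero_mul]
      | succ m ih =>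
        rw [succ_nsmul, hadd _ (W'.nsmul_mem hx m) _ hx, ih, Nat.cast_succ, add_mul, one_mul]
    rw [← hker _ (W'.nsmul_mem hx r), hn, ZMod.natCast_self, zero_mul]
  · have h0 : φ 0 = 1 := (hker 0 W'.zero_mem).2 W.zero_mem
    have hn : ∀ m : ℕ, φ (m • x) = φ x ^ m := by
      intro m
      induction m with
      | zero => rw [zero_nsmul, h0, pow_zero]
      | succ m ih =>
        rw [succ_nsmul, hmul _ (W'.nsmul_mem hx m) _ hx, ih, pow_succ]
    rw [← hker _ (W'.nsmul_mem hx r), hn, hpow x hx]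

theorem prod_bound_le (hOrd : OrdStmt) (hTame : LocNTameStmt) (hUnip : LocNUnipStmt)
    (hp : p.Prime) (hp' : p ∉ ({2, 3, 5, 7, 13} : Finset ℕ)) (hp5 : 5 ≤ p)
    {r : ℕ} (hr : r.Prime) (hrp : r ≠ p) (K : ℕ)
    (Ar : ValuationSubring Qb) (hAr : Ar.LiesOverPrime r)
    (Ap : ValuationSubring Qb) (hAp : Ap.LiesOverPrime p)
    (n : ℕ) (W : ℕ → AddSubgroup (JZero p)) (hW0 : W 0 = ⊥) (hWn : W n = VE p r K)
    (hmono : ∀ i < n, W i ≤ W (i + 1))
    (hpiece : ∀ i < n, TrivPiece p r (W i) (W (i + 1)) ∨ CycPiece p r (W i) (W (i + 1))) :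
    ∏ i ∈ Finset.range n,
      (kindOf (¬ ((VE p r K ⊓ kerRed p Ar) ⊓ W (i + 1) ≤ W i))
        (¬ (defectSub p r K Ap ⊓ W (i + 1) ≤ W i))).bound r ≤ Nat.card ↥(VE p r K) := by
  classical
  haveI := finite_VE (p := p) hr K
  have hexp : ∀ i < n, ∀ x ∈ W (i + 1), r • x ∈ W i := fun i hi => piece_exp hr (hpiece i hi)
  simp only [kindOf_bound]
  rw [Finset.prod_mul_distrib]
  set S₁ : AddSubgroup (JZero p) := VE p r K ⊓ kerRed p Ar with hS₁
  set S₂ : AddSubgroup (JZero p) := defectSub p r K Ap with hS₂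
  haveI : Finite ↥S₁ := Finite.of_injective (AddSubgroup.inclusion (inf_le_left : S₁ ≤ VE p r K))
    (AddSubgroup.inclusion_injective _)
  haveI : Finite ↥S₂ := Finite.of_injective (AddSubgroup.inclusion (defectSub_le_VE r K Ap))
    (AddSubgroup.inclusion_injective _)
  have h1 := @pow_card_tagged_le (JZero p) _ r hr n W hW0 hmono hexp S₁ _
    (fun i => ¬ (S₁ ⊓ W (i + 1) ≤ W i)) (fun i => Classical.propDecidable _) (fun i _ h => h)
  have h2 := @pow_card_tagged_le (JZero p) _ r hr n W hW0 hmono hexp S₂ _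
    (fun i => ¬ (S₂ ⊓ W (i + 1) ≤ W i)) (fun i => Classical.propDecidable _) (fun i _ h => h)
  have h1' : Nat.card ↥(S₁ ⊓ W n) ≤ Nat.card ↥S₁ :=
    Nat.card_le_card_of_injective (AddSubgroup.inclusion inf_le_left)
      (AddSubgroup.inclusion_injective _)
  have h2' : Nat.card ↥(S₂ ⊓ W n) ≤ Nat.card ↥S₂ :=
    Nat.card_le_card_of_injective (AddSubgroup.inclusion inf_le_left)
      (AddSubgroup.inclusion_injective _)
  have h3 : Nat.card ↥S₁ ^ 2 ≤ Nat.card ↥(VE p r K) := hOrd hp hp' hr hrp K Ar hAr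
  have h4 : Nat.card ↥S₂ ^ 2 ≤ Nat.card ↥(VE p r K) :=
    card_defectSub_sq_le hTame hUnip hp hp5 hr hrp K Ap hAp
  exact le_trans (Nat.mul_le_mul (h1.trans h1') (h2.trans h2')) (mul_le_of_sq_le h3 h4)

end Fermat.Agent.S15lib.Desc
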