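/-
S15lib / Desc / Main  (helper7)  — Project E

**The assembly of the Eisenstein descent**: `desc_of_stmts : … → DescStmt`.

* `kumFamily p r K e`   : the group `𝒦` of the Kummer cocycles `σ ↦ e (σ h − h)`, `r^K h ∈ G⁰_K`;
* `card_kumFamily_le`   : `|𝒦| ≤ |VE p r K|`  (the Selmer count along the admissible filtration);
* `exists_rat_of_G0`    : (BND)  for `r^K h ∈ G⁰_K` there is a rational `w` with
                          `r^K w = B₀! · e (r^K h)`, `B₀ ≥ |VE^{G_ℚ}|` independent of `K`;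
* `desc_of_stmts`       : (D1″) by Bezout.
-/
import Fermat.Agent.S15lib.Desc.Bound
import Fermat.Agent.Helper5.FrobExists

set_option autoImplicit false
set_option linter.style.haveILetI false
set_option linter.unusedSectionVars false

noncomputable section

namespace Fermat.Agent.S15lib.Desc

open AlgebraicCurve ModularCurve Fermat.Agent.S15lib
open scoped Pointwise BigOperators

local notation "Qb" => AlgebraicClosure ℚ
local notation "GQ" => (AlgebraicClosure ℚ ≃ₐ[ℚ] AlgebraicClosure ℚ)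

section

variable {p : ℕ} [NeZero p]

/-! ### `G⁰_K` is a subgroup -/

theorem isG0_zero (r K : ℕ) : IsG0 p r K (0 : JZero p) :=
  ⟨isRat_zero, fun A _ => ⟨0, nsmul_zero _, (inertiaFixed p A).zero_mem⟩⟩

theorem IsG0.add {r K : ℕ} {g g' : JZero p} (h : IsG0 p r K g) (h' : IsG0 p r K g') :
    IsG0 p r K (g + g') :=
  ⟨IsRat.add h.1 h'.1, fun A hA => by
    obtain ⟨x, hx, hxf⟩ := h.2 A hA
    obtain ⟨x', hx', hxf'⟩ := h'.2 A hA
    exact ⟨x + x', by rw [nsmul_add, hx, hx'], (inertiaFixed p A).add_mem hxf hxf'⟩⟩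

theorem IsG0.neg {r K : ℕ} {g : JZero p} (h : IsG0 p r K g) : IsG0 p r K (-g) :=
  ⟨IsRat.neg h.1, fun A hA => by
    obtain ⟨x, hx, hxf⟩ := h.2 A hA
    exact ⟨-x, by rw [neg_nsmul, hx],
      (inertiaFixed p A).neg_mem hxf⟩⟩

/-- **the Kummer family** `𝒦` -/
def kumFamily (p : ℕ) [NeZero p] (r K : ℕ) (e : AddMonoid.End (JZero p)) :
    AddSubgroup (GQ → JZero p) where
  carrier := {c | ∃ h : JZero p, IsG0 p r K (r ^ K • h) ∧ c = kum p e h}
  zero_mem' := ⟨0, by rw [nsmul_zero]; exact isG0_zero r K, funext fun σ => (kum_zero e σ).symm⟩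
  add_mem' := by
    rintro _ _ ⟨h, hh, rfl⟩ ⟨h', hh', rfl⟩
    exact ⟨h + h', by rw [nsmul_add]; exact hh.add hh', funext fun σ => (kum_add e h h' σ).symm⟩
  neg_mem' := by
    rintro _ ⟨h, hh, rfl⟩
    exact ⟨-h, by rw [neg_nsmul]; exact hh.neg,
      funext fun σ => (kum_neg e h σ).symm⟩

theorem triv_of_cyc_of_two {r : ℕ} (h2 : r = 2) {W W' : AddSubgroup (JZero p)}
    (h : CycPiece p r W W') : TrivPiece p r W W' := by
  subst h2
  exact triv_of_cyc_two h

theorem cyc_of_triv_of_two {r : ℕ} (h2 : r = 2) {W W' : AddSubgroup (JZero p)}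
    (h : TrivPiece p r W W') : CycPiece p r W W' := by
  subst h2
  exact cyc_of_triv_two h

theorem five_le_of_not_mem {p : ℕ} (hp : p.Prime) (hp' : p ∉ ({2, 3, 5, 7, 13} : Finset ℕ)) :
    5 ≤ p := by
  by_contra h
  have h := Nat.lt_of_not_le h
  have h2 := hp.two_le
  simp only [Finset.mem_insert, Finset.mem_singleton, not_or] at hp'
  interval_cases p
  · exact hp'.1 rfl
  · exact hp'.2.1 rfl
  · exact absurd hp (by norm_num)

/-! ### the count -/

theorem card_kumFamily_le (hCont : ContStmt) (hAdm : AdmStmt) (hRed : RedHeckeStmt)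
    (hKumM : KumMStmt) (hMt : Mt1Stmt) (hOrd : OrdStmt) (hTame : LocNTameStmt)
    (hUnip : LocNUnipStmt) (hSel : SelStmt)
    (hp : p.Prime) (hp' : p ∉ ({2, 3, 5, 7, 13} : Finset ℕ)) {r : ℕ} (hr : r.Prime) (hrp : r ≠ p)
    (K : ℕ) {e : AddMonoid.End (JZero p)} (he : e ∈ heckeRing p)
    (he1 : ∀ x : JZero p, r ^ K • x = 0 → e x ∈ VE p r K) (he2 : ∀ x ∈ VE p r K, e x = x) :
    Finite ↥(kumFamily p r K e) ∧ Nat.card ↥(kumFamily p r K e) ≤ Nat.card ↥(VE p r K) := by
  classical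
  obtain ⟨n, W, hW0, hWn, hmono, hstab, hpiece⟩ := hAdm hp hp' hr hrp K
  obtain ⟨Ar, -, hAr, -⟩ := Fermat.Agent.Helper5.exists_isFrobeniusAt r hr
  obtain ⟨Ap, -, hAp, -⟩ := Fermat.Agent.Helper5.exists_isFrobeniusAt p hp
  have hp5 : 5 ≤ p := five_le_of_not_mem hp hp'
  have hWle' : ∀ d i : ℕ, i + d = n → W i ≤ VE p r K := by
    intro d
    induction d with
    | zero => intro i hi; rw [add_zero] at hi; rw [hi, hWn]
    | succ d ih =>
      intro i hi
      exact le_trans (hmono i (by omega)) (ih (i + 1) (by omega))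
  have hWle : ∀ i ≤ n, W i ≤ VE p r K := fun i hi => hWle' (n - i) i (by omega)
  have key := sel_ambient hSel hr hp hrp (J := JZero p) (VE p r K)
    (fun g x hx => smul_mem_VE g hx) (kumFamily p r K e)
    (by
      rintro c ⟨h, hh, rfl⟩ σ
      exact kum_mem_VE he1 hh.1 σ)
    (by
      rintro c ⟨h, hh, rfl⟩
      refine ⟨fun g k => kum_mul he h g k, ?_⟩
      obtain ⟨F, hF, hFs⟩ := hCont hp h
      exact ⟨F, hF, fun g s hs => kum_levelConst e hFs g s hs⟩)
    (by
      rintro c ⟨h, hh, rfl⟩ ℓ hℓ hℓr hℓp A hA σ hσ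
      exact kum_inertia_eq_zero hp hr hℓ hℓp hℓr A hA e hh.1 hσ)
    n W hW0 hWn hmono hstab
    (fun i => kindOf (¬ ((VE p r K ⊓ kerRed p Ar) ⊓ W (i + 1) ≤ W i))
      (¬ (defectSub p r K Ap ⊓ W (i + 1) ≤ W i)))
    (by
      -- étale-tag
      intro i hi hk
      have htag : (VE p r K ⊓ kerRed p Ar) ⊓ W (i + 1) ≤ W i := not_not.1 (kindOf_e hk)
      have hfromTriv : TrivPiece p r (W i) (W (i + 1)) →
          ∃ e₀ : JZero p → ZMod r,
            (∀ x ∈ W (i + 1), ∀ y ∈ W (i + 1), e₀ (x + y) = e₀ x + e₀ y) ∧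
            (∀ x ∈ W (i + 1), e₀ x = 0 ↔ x ∈ W i) ∧
            (∀ (g : GQ), ∀ x ∈ W (i + 1), e₀ (g • x) = e₀ x) ∧
            ∀ c ∈ kumFamily p r K e, (∀ σ, c σ ∈ W (i + 1)) →
              ∀ A : ValuationSubring Qb, A.LiesOverPrime r →
                ∀ σ ∈ A.inertiaSubgroupIn ℚ, e₀ (c σ) = 0 := by
        rintro ⟨e₀, hadd, hker, hinv⟩
        refine ⟨e₀, hadd, hker, hinv, ?_⟩
        rintro c ⟨h, hh, rfl⟩ hcW A hA σ hσ
        exact etale_unram hRed hp hr hrp he he1 (hstab (i + 1) hi) hAr htag e₀ hadd hker hinv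
          hh.1 hcW A hA σ hσ
      rcases hpiece i hi with htriv | hcyc
      · exact hfromTriv htriv
      · by_cases hr2 : r = 2
        · exact hfromTriv (triv_of_cyc_of_two hr2 hcyc)
        · by_cases hle : W (i + 1) ≤ W i
          · exact hfromTriv ⟨fun _ => 0, fun _ _ _ _ => (add_zero _).symm,
              fun x hx => ⟨fun _ => hle hx, fun _ => rfl⟩, fun _ _ _ => rfl⟩
          · exfalso
            obtain ⟨x, hx, hxW⟩ := SetLike.not_le_iff_exists.1 hle
            obtain ⟨φ, hmul, hpow, hker, hequiv⟩ := hcyc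
            exact cyc_etale_odd_false cycloRamStmt hp hr hrp hr2 (hstab (i + 1) hi)
              (hWle (i + 1) hi) hAr htag φ hmul hpow hker hequiv hx hxW)
    (by
      -- mult-tag
      intro i hi hk
      have htag : ¬ ((VE p r K ⊓ kerRed p Ar) ⊓ W (i + 1) ≤ W i) := kindOf_m hk
      have hfromCyc : CycPiece p r (W i) (W (i + 1)) →
          ∃ φ : JZero p → Qb,
            (∀ x ∈ W (i + 1), ∀ y ∈ W (i + 1), φ (x + y) = φ x * φ y) ∧
            (∀ x ∈ W (i + 1), φ x ^ r = 1) ∧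
            (∀ x ∈ W (i + 1), φ x = 1 ↔ x ∈ W i) ∧
            (∀ (g : GQ), ∀ x ∈ W (i + 1), φ (g • x) = g (φ x)) ∧
            ∀ c ∈ kumFamily p r K e, (∀ σ, c σ ∈ W (i + 1)) →
              ∀ A : ValuationSubring Qb, A.LiesOverPrime r → ∃ β : Qb, A.valuation β = 1 ∧
                ∀ σ ∈ A.inertiaSubgroupIn ℚ, σ β = φ (c σ) * β := by
        rintro ⟨φ, hmul, hpow, hker, hequiv⟩
        refine ⟨φ, hmul, hpow, hker, hequiv, ?_⟩
        rintro c ⟨h, hh, rfl⟩ hcW A hA
        exact hKumM hp hp' hr hrp K e he he1 he2 (W i) (W (i + 1)) (hmono i hi)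
          (hWle (i + 1) hi) (hstab i (le_of_lt hi)) (hstab (i + 1) hi) φ hmul hpow hker hequiv
          h hh.1 hcW A hA
      rcases hpiece i hi with htriv | hcyc
      · by_cases hr2 : r = 2
        · exact hfromCyc (cyc_of_triv_of_two hr2 htriv)
        · exfalso
          obtain ⟨y, hy, hyW⟩ := SetLike.not_le_iff_exists.1 htag
          obtain ⟨e₀, hadd, hker, hinv⟩ := htriv
          exact triv_mult_odd_false cycloRamStmt hMt hp hp' hr hrp hr2 (hstab (i + 1) hi)
            (hmono i hi) hAr e₀ hadd hker hinv hy.1.1 hy.1.2 hy.2 hyW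
      · exact hfromCyc hcyc)
    (by
      -- good at the level
      intro i hi hk
      have htag : defectSub p r K Ap ⊓ W (i + 1) ≤ W i := not_not.1 (kindOf_good hk)
      rintro c ⟨h, hh, rfl⟩ hcW A hA σ hσ
      exact good_level hp he he1 (hstab i (le_of_lt hi)) (hstab (i + 1) hi) hAp htag hh hcW
        A hA σ hσ)
  exact ⟨key.1, key.2.trans
    (prod_bound_le hOrd hTame hUnip hp hp' hp5 hr hrp K Ar hAr Ap hAp n W hW0 hWn hmono hpiece)⟩

/-! ### (BND) -/

theorem exists_rat_of_G0 (hCont : ContStmt) (hAdm : AdmStmt) (hRed : RedHeckeStmt)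
    (hKumM : KumMStmt) (hMt : Mt1Stmt) (hOrd : OrdStmt) (hTame : LocNTameStmt)
    (hUnip : LocNUnipStmt) (hSel : SelStmt)
    (hp : p.Prime) (hp' : p ∉ ({2, 3, 5, 7, 13} : Finset ℕ)) {r : ℕ} (hr : r.Prime) (hrp : r ≠ p)
    (K : ℕ) {e : AddMonoid.End (JZero p)} (he : e ∈ heckeRing p)
    (he1 : ∀ x : JZero p, r ^ K • x = 0 → e x ∈ VE p r K) (he2 : ∀ x ∈ VE p r K, e x = x)
    (B₀ : ℕ) (hB₀ : Nat.card {v : ↥(VE p r K) // IsRat (v : JZero p)} ≤ B₀)
    {h : JZero p} (hh : IsG0 p r K (r ^ K • h)) :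
    ∃ w : JZero p, IsRat w ∧ r ^ K • w = Nat.factorial B₀ • e (r ^ K • h) := by
  obtain ⟨hfin, hcard⟩ := card_kumFamily_le hCont hAdm hRed hKumM hMt hOrd hTame hUnip hSel
    hp hp' hr hrp K he he1 he2
  haveI := hfin
  haveI := finite_VE (p := p) hr K
  let δ : ↥(VE p r K) →+ (GQ → JZero p) :=
    { toFun := fun v σ => σ • (v : JZero p) - v
      map_zero' := funext fun σ => by
        show σ • (0 : JZero p) - 0 = 0
        rw [gsmul_zero, sub_zero]
      map_add' := fun a b => funext fun σ => by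
        show σ • ((a : JZero p) + b) - (a + b) = (σ • (a : JZero p) - a) + (σ • (b : JZero p) - b)
        rw [gsmul_add]; abel }
  have hδ : ∀ (v : ↥(VE p r K)) (σ : GQ), δ v σ = σ • (v : JZero p) - v := fun _ _ => rfl
  have hle : δ.range ≤ kumFamily p r K e := by
    rintro _ ⟨v, rfl⟩
    refine ⟨(v : JZero p), ?_, funext fun σ => ?_⟩
    · rw [v.2.1]; exact isG0_zero r K
    · rw [hδ, kum_apply, he2 _ ((VE p r K).sub_mem (smul_mem_VE σ v.2) v.2)]
  have hker : Nat.card δ.ker ≤ B₀ := by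
    refine le_trans (Nat.card_le_card_of_injective
      (fun v : δ.ker => (⟨v.1, fun σ => ?_⟩ : {v : ↥(VE p r K) // IsRat (v : JZero p)}))
      (fun a b hab => Subtype.ext (by
        have := congrArg Subtype.val hab
        exact this))) hB₀
    have h1 : δ v.1 σ = 0 := by rw [(AddMonoidHom.mem_ker).1 v.2]; rfl
    rw [hδ] at h1
    exact sub_eq_zero.1 h1
  obtain ⟨v, hv⟩ := nsmul_factorial_mem_range δ (kumFamily p r K e) hle hcard B₀ hker
    (kum p e h) ⟨h, hh, rfl⟩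
  have hvσ : ∀ σ : GQ, σ • (v : JZero p) - v = Nat.factorial B₀ • kum p e h σ := fun σ => by
    rw [← hδ, hv]; rfl
  refine ⟨Nat.factorial B₀ • e h - v, fun σ => ?_, ?_⟩
  · have h1 := hvσ σ
    rw [kum_apply, map_sub, nsmul_sub] at h1
    have h2 : Nat.factorial B₀ • e (σ • h) = σ • (v : JZero p) - v + Nat.factorial B₀ • e h := by
      rw [h1]; abel
    rw [gsmul_sub, gsmul_nsmul, ← heckeRing_galois he, h2]
    abel
  · rw [nsmul_sub, v.2.1, sub_zero, map_nsmul, nsmul_left_comm]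

/-- the number of rational points in the Eisenstein part is bounded independently of the level -/
theorem card_rat_VE_le (hFin : FinStmt) (hp : p.Prime) (hp' : p ∉ ({2, 3, 5, 7, 13} : Finset ℕ))
    {r : ℕ} (hr : r.Prime) :
    ∃ B₀ : ℕ, ∀ K : ℕ, Nat.card {v : ↥(VE p r K) // IsRat (v : JZero p)} ≤ B₀ := by
  -- an auxiliary prime `s ∤ r p`
  obtain ⟨s, hs, hsr, hsp⟩ : ∃ s : ℕ, s.Prime ∧ s ≠ r ∧ s ≠ p := by
    simp only [Finset.mem_insert, Finset.mem_singleton, not_or] at hp'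
    by_cases h2 : r = 2
    · exact ⟨3, Nat.prime_three, by omega, fun h => hp'.2.1 h.symm⟩
    · exact ⟨2, Nat.prime_two, fun h => h2 h.symm, fun h => hp'.1 h.symm⟩
  obtain ⟨A, -, hA, -⟩ := Fermat.Agent.Helper5.exists_isFrobeniusAt s hs
  have hfin := hFin hp hs hsp A hA
  haveI : Finite ↥((reductionModL A p) '' {z : JZero p | IsRat z}) := hfin.to_subtype
  refine ⟨Nat.card ↥((reductionModL A p) '' {z : JZero p | IsRat z}), fun K => ?_⟩
  refine Nat.card_le_card_of_injective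
    (fun v : {v : ↥(VE p r K) // IsRat (v : JZero p)} =>
      (⟨reductionModL A p (v.1 : JZero p), ⟨(v.1 : JZero p), v.2, rfl⟩⟩ :
        ↥((reductionModL A p) '' {z : JZero p | IsRat z}))) ?_
  intro a b hab
  have h1 : reductionModL A p (a.1 : JZero p) = reductionModL A p (b.1 : JZero p) :=
    congrArg Subtype.val hab
  have h2 : reductionModL A p ((a.1 : JZero p) - b.1) = 0 := by rw [map_sub, h1, sub_self]
  have h3 : r ^ K • ((a.1 : JZero p) - b.1) = 0 := by
    rw [nsmul_sub, a.1.2.1, b.1.2.1, sub_self]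
  have h4 : ¬ s ∣ r ^ K := fun hd =>
    hsr ((Nat.prime_dvd_prime_iff_eq hs hr).1 (hs.dvd_of_dvd_pow hd))
  have h5 := torsInjPrimeToStmt hp hs hsp A hA (r ^ K) h4 _ h3 h2
  exact Subtype.ext (Subtype.ext (sub_eq_zero.1 h5))

end

/-! ### the descent -/

/-- **(D1″) from the blocks.** -/
theorem desc_of_stmts (hDiv : DivStmt) (hCont : ContStmt) (hHProj : HProjStmt) (hAdm : AdmStmt)
    (hRed : RedHeckeStmt) (hFin : FinStmt) (hKumM : KumMStmt) (hMt : Mt1Stmt) (hOrd : OrdStmt)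
    (hLocDiv : LocNDivStmt) (hTame : LocNTameStmt) (hUnip : LocNUnipStmt) (hSel : SelStmt) :
    DescStmt := by
  intro p hp hp' r hr hrp k
  haveI : NeZero p := ⟨hp.ne_zero⟩
  by_cases hk : k = 0
  · subst hk
    refine ⟨1, Subring.one_mem _, fun v _ _ => rfl,
      fun g hg => ⟨g, 0, hg, isRat_zero, ⟨0, nsmul_zero _⟩, ?_⟩⟩
    rw [pow_zero, one_nsmul, add_zero]
    rfl
  obtain ⟨i₀, hi₀, hG0⟩ := hLocDiv hp hp' hr hrp
  obtain ⟨B₀, hB₀⟩ := card_rat_VE_le hFin hp hp' hr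
  have hT : Nat.factorial B₀ * i₀ ≠ 0 :=
    Nat.mul_ne_zero (Nat.factorial_ne_zero B₀) (Nat.pos_iff_ne_zero.1 hi₀)
  obtain ⟨a, m', hm', hTeq⟩ := Nat.exists_eq_pow_mul_and_not_dvd hT r hr.ne_one
  obtain ⟨e, he, he1, he2⟩ := hHProj hp hr hrp (k + a)
  refine ⟨e, he, ?_, ?_⟩
  · -- the Eisenstein eigenvectors
    intro v hv hEis
    apply he2
    refine ⟨?_, fun q hq => ⟨1, ?_⟩⟩
    · rw [pow_add, mul_nsmul, hv, nsmul_zero]
    · rw [pow_one, eta, end_sub_apply, hEis q hq, end_natCast_apply, natCast_zsmul, sub_self]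
  · intro g hg
    obtain ⟨h, hh⟩ := hDiv hp (r ^ (k + a)) (pow_pos hr.pos _) (i₀ • g)
    have hG : IsG0 p r (k + a) (r ^ (k + a) • h) := by
      rw [hh]; exact hG0 g hg (k + a)
    obtain ⟨w, hw, hwK⟩ := exists_rat_of_G0 hCont hAdm hRed hKumM hMt hOrd hTame hUnip hSel
      hp hp' hr hrp (k + a) he he1 he2 B₀ (hB₀ (k + a)) hG
    set x : JZero p := e g with hx
    have hxrat : IsRat x := IsRat.hecke he hg
    -- `r^(k+a) w = (r^a m') x`
    have hwK' : (r ^ a * r ^ k) • w = (r ^ a * m') • x := by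
      rw [← hTeq, ← pow_add, add_comm a k, hwK, hh, map_nsmul, smul_smul]
    -- Bezout
    have hcop : Nat.Coprime m' (r ^ k) :=
      Nat.Coprime.pow_right k ((Nat.Prime.coprime_iff_not_dvd hr).2 hm').symm
    have h1lt : 1 < r ^ k := Nat.one_lt_pow hk hr.one_lt
    obtain ⟨u, -, hu⟩ := Nat.exists_mul_mod_eq_one_of_coprime hcop h1lt
    obtain ⟨s, hs⟩ : ∃ s : ℕ, m' * u = r ^ k * s + 1 :=
      ⟨m' * u / r ^ k, by
        have := Nat.div_add_mod (m' * u) (r ^ k)
        rw [hu] at this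
        exact this.symm⟩
    set t₀ : JZero p := r ^ k • w - m' • x with ht₀
    have ht₀rat : IsRat t₀ := IsRat.sub (IsRat.nsmul hw _) (IsRat.nsmul hxrat _)
    have ht₀tors : r ^ a • t₀ = 0 := by
      rw [ht₀, nsmul_sub, smul_smul, smul_smul, hwK', sub_self]
    refine ⟨u • w - s • x, -(u • t₀), IsRat.sub (IsRat.nsmul hw u) (IsRat.nsmul hxrat s),
      IsRat.neg (IsRat.nsmul ht₀rat u), ⟨a, ?_⟩, ?_⟩
    · rw [neg_nsmul, nsmul_left_comm, ht₀tors, nsmul_zero, neg_zero]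
    · have e1 : (m' * u) • x = (r ^ k * s) • x + x := by rw [hs, add_nsmul, one_nsmul]
      rw [ht₀, nsmul_sub, nsmul_sub, smul_smul, smul_smul, smul_smul, smul_smul,
        mul_comm u (r ^ k), mul_comm u m', e1]
      abel

/-- helper6's count -/
theorem selStmt : SelStmt := by
  intro r N hr hN hrN V _ _ K hKc hKur n W hW0 hWn hmono hstab kind hE hM hgoodN
  exact SEL.kummer_card_le hr hN hrN K hKc hKur n W hW0 hWn hmono hstab kind hE hM hgoodN

/-- **(D1″) from the blocks**, with the blocks which are already proved (`selStmt`, and in this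
directory `cycloRamStmt`, `inertiaRedStmt`, `torsInjPrimeToStmt`) discharged. -/
theorem desc_of_blocks (hDiv : DivStmt) (hCont : ContStmt) (hHProj : HProjStmt) (hAdm : AdmStmt)
    (hRed : RedHeckeStmt) (hFin : FinStmt) (hKumM : KumMStmt) (hMt : Mt1Stmt) (hOrd : OrdStmt)
    (hLocDiv : LocNDivStmt) (hTame : LocNTameStmt) (hUnip : LocNUnipStmt) : DescStmt :=
  desc_of_stmts hDiv hCont hHProj hAdm hRed hFin hKumM hMt hOrd hLocDiv hTame hUnip selStmt

end Fermat.Agent.S15lib.Desc
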