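/-
S15lib / Desc / Nondeg  (helper7)  — Project E

* `hecke_comm`      : the Hecke polynomials commute on `J[r^k]`  (from helper3's `TJ_comm_of_pow_smul`);
* `weilPair_hecke`  : the Hecke polynomials are self-adjoint for the Weil pairing on `J[m]`
                      (helper9's (W3) + `HeckeTrStmt`: `heckeTr = TJ` on torsion);
* `nondegStmt`      : `Kum.NondegStmt`, the Weil pairing is nondegenerate on `VE p r 1`
                      ((W2) on `J[r]`, given (U1) at `r`, + the Eisenstein projector of `HProjStmt`);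
* `divStmt_of_divisibleAt` : `DivStmt` from (U1) for general function fields.
-/
import Fermat.Agent.S15lib.Desc.Basic
import Fermat.Agent.S15lib.Kum.Mt1
import Fermat.Agent.S15lib.Weil.Final
import Fermat.Agent.S15lib.Adm.Comm

set_option autoImplicit false
set_option linter.style.haveILetI false
set_option linter.unusedSectionVars false

noncomputable section

namespace Fermat.Agent.S15lib.Desc

open AlgebraicCurve ModularCurve Fermat.Agent.S15lib Fermat.Agent.S15lib.Weil

local notation "Qb" => AlgebraicClosure ℚ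
local notation "GQ" => (AlgebraicClosure ℚ ≃ₐ[ℚ] AlgebraicClosure ℚ)

/-- **`heckeTr = TJ` on torsion** (`N_β(α f) = N_α(β f)`).  Owner: helper9. -/
def HeckeTrStmt : Prop :=
  ∀ {p : ℕ} (hp : p.Prime) (q : Nat.Primes) (_hq : (q : ℕ) ≠ p) {m : ℕ} (_hm : 0 < m),
    haveI : NeZero p := ⟨hp.ne_zero⟩
    ∀ y : JZero p, m • y = 0 →
      (haveI : NeZero (q : ℕ) := ⟨q.2.ne_zero⟩; Fermat.Agent.S29lib.H.heckeTr p q) y = TJ p q y

section

variable {p : ℕ} [NeZero p]

/-! ### commutativity on torsion -/

/-- the endomorphisms commuting on `J[n]` with all elements of a set -/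
def commSubring (n : ℕ) (𝒯 : Set (AddMonoid.End (JZero p))) : Subring (AddMonoid.End (JZero p)) where
  carrier := {S | ∀ T ∈ 𝒯, ∀ x : JZero p, n • x = 0 → S (T x) = T (S x)}
  mul_mem' := by
    intro S S' hS hS' T hT x hx
    rw [end_mul_apply, end_mul_apply, hS' T hT x hx]
    exact hS T hT (S' x) (by rw [← map_nsmul, hx, map_zero])
  one_mem' := fun T _ x _ => rfl
  add_mem' := by
    intro S S' hS hS' T hT x hx
    rw [end_add_apply, end_add_apply, hS T hT x hx, hS' T hT x hx, map_add]
  zero_mem' := fun T _ x _ => by rw [end_zero_apply, end_zero_apply, map_zero]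
  neg_mem' := by
    intro S hS T hT x hx
    rw [end_neg_apply, end_neg_apply, hS T hT x hx, map_neg]

/-- **the Hecke polynomials commute on `J[r^k]`** -/
theorem hecke_comm (hp : p.Prime) {r : ℕ} (hr : r.Prime) (k : ℕ)
    {S T : AddMonoid.End (JZero p)} (hS : S ∈ heckeRing p) (hT : T ∈ heckeRing p)
    {x : JZero p} (hx : r ^ k • x = 0) : S (T x) = T (S x) := by
  -- step 1: Hecke polynomials commute with the generators
  have h1 : heckeRing p ≤
      commSubring (r ^ k) {T | ∃ q : Nat.Primes, (q : ℕ) ≠ p ∧ T = TJ p q} := by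
    rw [heckeRing, Subring.closure_le]
    rintro _ ⟨q, hq, rfl⟩ _ ⟨q', hq', rfl⟩ y hy
    exact Adm.TJ_comm_of_pow_smul hp hq hq' hr k hy
  -- step 2: Hecke polynomials commute with Hecke polynomials
  have h2 : heckeRing p ≤ commSubring (r ^ k) (heckeRing p : Set (AddMonoid.End (JZero p))) := by
    conv_lhs => rw [heckeRing]
    rw [Subring.closure_le]
    rintro _ ⟨q, hq, rfl⟩ T' hT' y hy
    exact (h1 hT' _ ⟨q, hq, rfl⟩ y hy).symm
  exact h2 hS T hT x hx

/-! ### self-adjointness -/

theorem weilPair_neg_left {m : ℕ} {x y : JZero p} (hx : m • x = 0) (hy : m • y = 0) :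
    weilPair m (-x) y = (weilPair m x y)⁻¹ := by
  have hnx : m • (-x) = 0 := by rw [neg_nsmul, hx, neg_zero]
  have h := weilPair_add_left hnx hx hy
  rw [neg_add_cancel, weilPair_zero_left hy] at h
  exact eq_inv_of_mul_eq_one_left h.symm

theorem weilPair_neg_right {m : ℕ} {x y : JZero p} (hx : m • x = 0) (hy : m • y = 0) :
    weilPair m x (-y) = (weilPair m x y)⁻¹ := by
  have hny : m • (-y) = 0 := by rw [neg_nsmul, hy, neg_zero]
  have h := weilPair_add_right hx hny hy
  rw [neg_add_cancel, weilPair_zero_right hx] at h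
  exact eq_inv_of_mul_eq_one_left h.symm

/-- **the Hecke polynomials are self-adjoint for the Weil pairing** on `J[r^k]` -/
theorem weilPair_hecke (hTr : HeckeTrStmt) (hp : p.Prime) {r : ℕ} (hr : r.Prime) (k : ℕ)
    {T : AddMonoid.End (JZero p)} (hT : T ∈ heckeRing p) :
    ∀ x y : JZero p, r ^ k • x = 0 → r ^ k • y = 0 →
      weilPair (r ^ k) (T x) y = weilPair (r ^ k) x (T y) := by
  have hm : 0 < r ^ k := pow_pos hr.pos k
  have htor : ∀ (S : AddMonoid.End (JZero p)) {z : JZero p}, r ^ k • z = 0 → r ^ k • S z = 0 :=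
    fun S z hz => by rw [← map_nsmul, hz, map_zero]
  induction hT using Subring.closure_induction with
  | mem T hT =>
    obtain ⟨q, hq, rfl⟩ := hT
    intro x y hx hy
    have hqp : ¬ (q : ℕ) ∣ p := fun h => hq ((Nat.prime_dvd_prime_iff_eq q.2 hp).1 h)
    have h := weilPair_TJ p q hqp hx hy
    rw [hTr hp q hq hm y hy] at h
    exact h
  | zero =>
    intro x y hx hy
    rw [end_zero_apply, end_zero_apply, weilPair_zero_left hy, weilPair_zero_right hx]
  | one => intro x y _ _; rfl
  | add S T hS hT ihS ihT =>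
    intro x y hx hy
    rw [end_add_apply, end_add_apply, weilPair_add_left (htor S hx) (htor T hx) hy,
      weilPair_add_right hx (htor S hy) (htor T hy), ihS x y hx hy, ihT x y hx hy]
  | neg S hS ihS =>
    intro x y hx hy
    rw [end_neg_apply, end_neg_apply, weilPair_neg_left (htor S hx) hy,
      weilPair_neg_right hx (htor S hy), ihS x y hx hy]
  | mul S T hS hT ihS ihT =>
    intro x y hx hy
    rw [end_mul_apply, end_mul_apply, ihS (T x) y (htor T hx) hy, ihT x (S y) hx (htor S hy),
      hecke_comm hp hr k hT hS hy]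

end

/-! ### nondegeneracy on the Eisenstein part -/

/-- **`NondegStmt`**: the Weil pairing is nondegenerate on `VE p r 1`. -/
theorem nondegStmt (hU1 : ∀ r : ℕ, r.Prime → DivisibleAt.{0, 0} Qb r) (hTr : HeckeTrStmt)
    (hHProj : HProjStmt) : Kum.NondegStmt := by
  intro p hp hp' r hr hrp
  haveI : NeZero p := ⟨hp.ne_zero⟩
  intro x hx hxy
  by_contra hx0
  have hxr : r • x = 0 := by
    have := hx.1
    rwa [pow_one] at this
  obtain ⟨y, hy, hxy'⟩ := exists_weilPair_ne_one_JZero p hr (hU1 r hr) hxr hx0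
  obtain ⟨ε, hε, hε1, hε2⟩ := hHProj hp hr hrp 1
  have hy1 : r ^ 1 • y = 0 := by rw [pow_one]; exact hy
  have hx1 : r ^ 1 • x = 0 := by rw [pow_one]; exact hxr
  have hεy : ε y ∈ VE p r 1 := hε1 y hy1
  have h1 := hxy (ε y) hεy
  have h2 : weilPair (r ^ 1) (ε x) y = weilPair (r ^ 1) x (ε y) :=
    weilPair_hecke hTr hp hr 1 hε x y hx1 hy1
  rw [hε2 x hx, pow_one, h1] at h2
  exact hxy' h2

/-! ### (U1) for the modular curve -/

/-- `DivStmt` from (U1) for general function fields -/
theorem divStmt_of_divisibleAt (hU1 : ∀ r : ℕ, r.Prime → DivisibleAt.{0, 0} Qb r) : DivStmt := by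
  intro p hp
  haveI : NeZero p := ⟨hp.ne_zero⟩
  have hprime : ∀ r : ℕ, r.Prime → ∀ z : JZero p, ∃ w : JZero p, r • w = z := fun r hr z =>
    hU1 r hr (FB p) (Fermat.Agent.S37lib.HeckeInst.jB p)
      (Fermat.Agent.S37lib.HeckeInst.transcendental_jB p)
      (Fermat.Agent.S37lib.HeckeInst.finiteDimensional_jB p) z
  intro n hn
  induction n using Nat.recOnMul with
  | zero => exact absurd hn (lt_irrefl 0)
  | one => exact fun z => ⟨z, one_nsmul z⟩
  | prime r hr => exact fun z => hprime r hr z
  | mul a b iha ihb =>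
    intro z
    have ha : 0 < a := Nat.pos_of_ne_zero fun h => by rw [h, zero_mul] at hn; exact lt_irrefl 0 hn
    have hb : 0 < b := Nat.pos_of_ne_zero fun h => by rw [h, mul_zero] at hn; exact lt_irrefl 0 hn
    obtain ⟨w, hw⟩ := iha ha z
    obtain ⟨w', hw'⟩ := ihb hb w
    exact ⟨w', by rw [mul_nsmul', hw', hw]⟩

end Fermat.Agent.S15lib.Desc
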