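/-
S15lib / Desc / Close  (helper7)  — Project E

`DescStmt` with every block which is already a theorem discharged.  What remains (2026-12-02):
* (U1)  `∀ r prime, Weil.DivisibleAt Qb r`   (helper1: analytic core over `ℂ`; helper9: marked Belyi;
        transport / descent / packaging: `S15lib/U1/{Transport,Descent,Pack}`),
* `OrdStmt`, `Kum.IsoStmt`  (helper5),
* `LocNDivStmt`  (helper4 + helper2).
-/
import Fermat.Agent.S15lib.Desc.Main
import Fermat.Agent.S15lib.Desc.Nondeg
import Fermat.Agent.S15lib.Kum.Main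
import Fermat.Agent.S15lib.Kum.LocNGlue
import Fermat.Agent.S15lib.Kum.Mt1
import Fermat.Agent.S15lib.RedH.Stmt
import Fermat.Agent.S15lib.Fin.Main
import Fermat.Agent.S15lib.Adm.Main
import Fermat.Agent.S15lib.Weil.Transpose

set_option autoImplicit false
set_option linter.style.haveILetI false

namespace Fermat.Agent.S15lib.Desc

local notation "Qb" => AlgebraicClosure ℚ

/-- `heckeTr = TJ` on torsion (helper9) -/
theorem heckeTrStmt : HeckeTrStmt := by
  intro p hp q hq m hm
  haveI : NeZero p := ⟨hp.ne_zero⟩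
  exact fun y hy => Weil.heckeTr_eq_TJ_of_torsion p q
    (fun h => hq ((Nat.prime_dvd_prime_iff_eq q.2 hp).1 h)) hm y hy

/-- the Weil pairing is nondegenerate on the Eisenstein part of `J[r]`, given (U1) -/
theorem nondegStmt_of_U1 (hU1 : ∀ r : ℕ, r.Prime → Weil.DivisibleAt.{0, 0} Qb r) :
    Kum.NondegStmt :=
  nondegStmt hU1 heckeTrStmt Adm.hProjStmt

/-- **(D1″)** from the blocks which are still open. -/
theorem desc_of_open (hU1 : ∀ r : ℕ, r.Prime → Weil.DivisibleAt.{0, 0} Qb r)
    (hOrd : OrdStmt) (hIso : Kum.IsoStmt) (hLocDiv : LocNDivStmt) : DescStmt :=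
  desc_of_blocks (divStmt_of_divisibleAt hU1) Kum.contStmt Adm.hProjStmt Adm.admStmt
    RedH.redHeckeStmt Fin.finStmt Kum.kumMStmt
    (Kum.mt1_of_pairing hIso (nondegStmt_of_U1 hU1)) hOrd hLocDiv Kum.locNTameStmt
    Kum.locNUnipStmt

end Fermat.Agent.S15lib.Desc
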