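/-
S15lib / Desc / Final  (helper7)  — Project E

`DescStmt` from the only block of DESC which is still open (2026-12-02): `LocNDivStmt` (LOCN).

* (U1) `divisibleAt_Qb : ∀ n > 0, Weil.DivisibleAt Qb n`  =  helper1's analytic core over `ℂ`
  (`U1.belyiDivAt_complex`) + helper9's marked Belyi functions (`U1.markedBelyi_Qb`) + the
  transport / descent / packaging of `S15lib/U1/{Transport,Descent,Pack}`;
* ORD: helper5's `ORD.isoStmt`, `ORD.ordStmt_of_nondeg`.
-/
import Fermat.Agent.S15lib.Desc.Close
import Fermat.Agent.S15lib.U1.OverC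
import Fermat.Agent.S15lib.U1.Marked
import Fermat.Agent.S15lib.U1.Pack
import Fermat.Agent.S15lib.ORD.Iso
import Fermat.Agent.S15lib.ORD.Main

set_option autoImplicit false
set_option linter.style.haveILetI false

namespace Fermat.Agent.S15lib.Desc

local notation "Qb" => AlgebraicClosure ℚ

/-- **(U1)**: on every function field of a curve over `Qb`, a degree zero divisor is `n` times a
degree zero divisor up to a principal divisor. -/
theorem divisibleAt_Qb {n : ℕ} (hn : 0 < n) : Weil.DivisibleAt.{0, 0} Qb n :=
  U1.divisibleAt_of_complex U1.markedBelyi_Qb hn (U1.belyiDivAt_complex n hn)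

/-- (U1) in the shape used by DESC -/
theorem divStmt : DivStmt :=
  divStmt_of_divisibleAt fun _ hr => divisibleAt_Qb hr.pos

/-- nondegeneracy of the Weil pairing on the Eisenstein part of `J[r]` -/
theorem nondegStmt_closed : Kum.NondegStmt :=
  nondegStmt_of_U1 fun _ hr => divisibleAt_Qb hr.pos

/-- (ORD) -/
theorem ordStmt_closed : OrdStmt :=
  ORD.ordStmt_of_nondeg nondegStmt_closed

/-- **(D1″)** from LOCN alone. -/
theorem descStmt_of_locN (hLocDiv : LocNDivStmt) : DescStmt :=
  desc_of_open (fun _ hr => divisibleAt_Qb hr.pos) ordStmt_closed ORD.isoStmt hLocDiv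

end Fermat.Agent.S15lib.Desc
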